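import Fermat.Agent.Thue.CubicForms
import Mathlib.NumberTheory.LegendreSymbol.QuadraticChar.Basic
import Mathlib.Algebra.Field.ZMod
import Mathlib.Tactic.LinearCombination
import Mathlib.Tactic.FieldSimp

/-!
# The quadratic character of the discriminant over a finite field

Away from characteristic two and three the values `χ (-3 disc)` of binary cubic forms sum to zero:
for fixed leading coefficient and `b` the form is a point `(h, u)` with `-27 a² disc = u² - 4 h³`,
and `∑ χ (u² - A)` is `-1` unless `A = 0`. So squares and non-squares occur equally often, and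
`q³ + q² - q` forms have discriminant zero.
-/

set_option autoImplicit false

noncomputable section

namespace FA.ThreeTorsionLocal

variable {F : Type} [Field F] [Fintype F] [DecidableEq F]

/-- The discriminant times `-3`. -/
def twistDisc (a b c d : F) : F :=
  -3 * (b ^ 2 * c ^ 2 - 4 * a * c ^ 3 - 4 * b ^ 3 * d - 27 * a ^ 2 * d ^ 2 + 18 * a * b * c * d)

theorem twistDisc_mul (a b c d : F) :
    9 * a ^ 2 * twistDisc a b c d =
      (2 * b ^ 3 - 9 * a * b * c + 27 * a ^ 2 * d) ^ 2 - 4 * (b ^ 2 - 3 * a * c) ^ 3 := by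
  simp only [twistDisc]; ring

theorem two_ne_zero' (h2 : ringChar F ≠ 2) : (2 : F) ≠ 0 :=
  Ring.two_ne_zero h2

/-- Solutions of `y² = x² - A`. -/
theorem sum_char_sq_sub (h2 : ringChar F ≠ 2) (A : F) :
    ∑ x : F, quadraticChar F (x ^ 2 - A) =
      if A = 0 then (Fintype.card F : ℤ) - 1 else -1 := by
  split_ifs with hA
  · subst hA
    simp only [sub_zero]
    rw [← Finset.add_sum_erase _ _ (Finset.mem_univ (0 : F)),
      Finset.sum_congr rfl fun x hx => quadraticChar_sq_one' (Finset.ne_of_mem_erase hx)]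
    simp only [ne_eq, OfNat.ofNat_ne_zero, not_false_eq_true, zero_pow, MulCharClass.map_nonunit,
      not_isUnit_zero, Finset.sum_const, Finset.mem_univ, Finset.card_erase_of_mem,
      Finset.card_univ, nsmul_one, zero_add]
    rw [Nat.cast_sub Fintype.card_pos, Nat.cast_one]
  have hcount : ∀ a : F,
      (((Finset.univ.filter fun y : F => y ^ 2 = a).card : ℕ) : ℤ) = quadraticChar F a + 1 := by
    intro a
    rw [← quadraticChar_card_sqrts h2 a]
    congr 2
    ext y
    simp
  have hpairs : (Finset.univ.filter fun q : F × F => q.2 ^ 2 = q.1 ^ 2 - A).card =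
      (Finset.univ.erase (0 : F)).card := by
    have h20 := two_ne_zero' h2
    refine Finset.card_bij' (fun q _ => q.1 - q.2)
      (fun r _ => ((r + A / r) / 2, (A / r - r) / 2)) ?_ ?_ ?_ ?_
    · intro q hq
      have hq := (Finset.mem_filter.mp hq).2
      refine Finset.mem_erase.mpr ⟨fun h => hA ?_, Finset.mem_univ _⟩
      linear_combination hq + (q.1 + q.2) * h
    · intro r hr
      have hr := Finset.ne_of_mem_erase hr
      refine Finset.mem_filter.mpr ⟨Finset.mem_univ _, ?_⟩
      field_simp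
      ring
    · intro q hq
      have hq := (Finset.mem_filter.mp hq).2
      have hne : q.1 - q.2 ≠ 0 := fun h => hA (by linear_combination hq + (q.1 + q.2) * h)
      have e : A / (q.1 - q.2) = q.1 + q.2 := by
        rw [div_eq_iff hne]; linear_combination hq
      ext <;> simp only [e] <;> field_simp <;> ring
    · intro r hr
      have hr := Finset.ne_of_mem_erase hr
      field_simp
      ring
  have hsum : ∑ x : F, (quadraticChar F (x ^ 2 - A) + 1) = (Fintype.card F : ℤ) - 1 := by
    simp only [← hcount]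
    rw [← Nat.cast_sum]
    have e : ∑ x : F, (Finset.univ.filter fun y : F => y ^ 2 = x ^ 2 - A).card =
        (Finset.univ.filter fun q : F × F => q.2 ^ 2 = q.1 ^ 2 - A).card := by
      rw [Finset.card_filter, Fintype.sum_prod_type]
      exact Finset.sum_congr rfl fun x _ => Finset.card_filter _ _
    rw [e, hpairs, Finset.card_erase_of_mem (Finset.mem_univ _), Finset.card_univ,
      Nat.cast_sub Fintype.card_pos, Nat.cast_one]
  rw [Finset.sum_add_distrib, Finset.sum_const, Finset.card_univ, nsmul_one] at hsum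
  linarith

theorem sum_char_weierstrass (h2 : ringChar F ≠ 2) :
    ∑ h : F, ∑ u : F, quadraticChar F (u ^ 2 - 4 * h ^ 3) = 0 := by
  have h4 : (4 : F) ≠ 0 := by
    rw [show (4 : F) = 2 * 2 by norm_num]
    exact mul_ne_zero (two_ne_zero' h2) (two_ne_zero' h2)
  simp only [sum_char_sq_sub h2, mul_eq_zero, h4, false_or, pow_eq_zero_iff three_ne_zero]
  rw [← Finset.add_sum_erase _ _ (Finset.mem_univ (0 : F)), if_pos rfl,
    Finset.sum_congr rfl fun x hx => if_neg (Finset.ne_of_mem_erase hx), Finset.sum_const,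
    Finset.card_erase_of_mem (Finset.mem_univ _), Finset.card_univ, nsmul_eq_mul,
    Nat.cast_sub Fintype.card_pos, Nat.cast_one]
  ring

theorem card_weierstrass (h2 : ringChar F ≠ 2) :
    ∑ h : F, ∑ u : F, (if u ^ 2 - 4 * h ^ 3 = 0 then (1 : ℤ) else 0) = Fintype.card F := by
  have h20 := two_ne_zero' h2
  have hb : (Finset.univ.filter fun q : F × F => q.2 ^ 2 - 4 * q.1 ^ 3 = 0).card =
      (Finset.univ : Finset F).card := by
    refine Finset.card_bij' (fun q _ => if q.1 = 0 then 0 else q.2 / (2 * q.1))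
      (fun t _ => (t ^ 2, 2 * t ^ 3)) ?_ ?_ ?_ ?_
    · exact fun _ _ => Finset.mem_univ _
    · intro t _
      exact Finset.mem_filter.mpr ⟨Finset.mem_univ _, by ring⟩
    · intro q hq
      obtain ⟨h, u⟩ := q
      have hq : u ^ 2 - 4 * h ^ 3 = 0 := (Finset.mem_filter.mp hq).2
      by_cases h0 : h = 0
      · subst h0
        have hu : u = 0 := by simpa using hq
        simp [hu]
      · simp only [if_neg h0]
        have e : u ^ 2 = 4 * h ^ 3 := by linear_combination hq
        ext
        · field_simp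
          linear_combination e
        · field_simp
          linear_combination u * e
    · intro t _
      by_cases ht : t = 0
      · simp [ht]
      · simp only [pow_eq_zero_iff two_ne_zero, if_neg ht]
        field_simp
  rw [← Finset.card_univ, ← hb, Finset.card_filter, Fintype.sum_prod_type]
  push_cast
  rfl

theorem sum_shift (h3 : (3 : F) ≠ 0) {a : F} (ha : a ≠ 0) (b : F) (G : F → F → ℤ) :
    ∑ c : F, ∑ d : F, G (b ^ 2 - 3 * a * c) (2 * b ^ 3 - 9 * a * b * c + 27 * a ^ 2 * d) =
      ∑ h : F, ∑ u : F, G h u := by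
  have h27 : (27 : F) * a ^ 2 ≠ 0 := by
    rw [show (27 : F) = 3 ^ 3 by norm_num]
    exact mul_ne_zero (pow_ne_zero _ h3) (pow_ne_zero _ ha)
  have h3a : (3 : F) * a ≠ 0 := mul_ne_zero h3 ha
  let e1 : F ≃ F :=
    { toFun := fun c => b ^ 2 - 3 * a * c
      invFun := fun h => (b ^ 2 - h) / (3 * a)
      left_inv := fun c => by field_simp; ring
      right_inv := fun h => by field_simp; ring }
  refine Fintype.sum_equiv e1 _ _ fun c => ?_
  let e2 : F ≃ F :=
    { toFun := fun d => 2 * b ^ 3 - 9 * a * b * c + 27 * a ^ 2 * d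
      invFun := fun u => (u - (2 * b ^ 3 - 9 * a * b * c)) / (27 * a ^ 2)
      left_inv := fun d => by
        simp only [add_sub_cancel_left, mul_div_cancel_left₀ _ h27]
      right_inv := fun u => by
        simp only [mul_div_cancel₀ _ h27, add_sub_cancel] }
  exact Fintype.sum_equiv e2 _ _ fun d => rfl

theorem sum_zero_lead (h2 : ringChar F ≠ 2) (h3 : (3 : F) ≠ 0) {b : F} (hb : b ≠ 0) (c : F)
    (G : F → ℤ) : ∑ d : F, G (twistDisc 0 b c d) = ∑ x : F, G x := by
  have h4 : (12 : F) * b ^ 3 ≠ 0 := by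
    rw [show (12 : F) = 3 * (2 * 2) by norm_num]
    exact mul_ne_zero (mul_ne_zero h3 (mul_ne_zero (two_ne_zero' h2) (two_ne_zero' h2)))
      (pow_ne_zero _ hb)
  let e : F ≃ F :=
    { toFun := fun d => -3 * b ^ 2 * c ^ 2 + 12 * b ^ 3 * d
      invFun := fun x => (x + 3 * b ^ 2 * c ^ 2) / (12 * b ^ 3)
      left_inv := fun d => by
        rw [div_eq_iff h4]; ring
      right_inv := fun x => by
        simp only [mul_div_cancel₀ _ h4]; ring }
  refine Fintype.sum_equiv e _ _ fun d => congrArg G ?_
  simp [e, twistDisc]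
  ring

theorem char_twistDisc (h3 : (3 : F) ≠ 0) {a : F} (ha : a ≠ 0) (b c d : F) :
    quadraticChar F (twistDisc a b c d) =
      quadraticChar F
        ((2 * b ^ 3 - 9 * a * b * c + 27 * a ^ 2 * d) ^ 2 - 4 * (b ^ 2 - 3 * a * c) ^ 3) := by
  rw [← twistDisc_mul, map_mul, show (9 : F) * a ^ 2 = (3 * a) ^ 2 by ring,
    quadraticChar_sq_one' (mul_ne_zero h3 ha), one_mul]

/-- Squares and non-squares balance. -/
theorem sum_char_twistDisc (h2 : ringChar F ≠ 2) (h3 : (3 : F) ≠ 0) :
    ∑ a : F, ∑ b : F, ∑ c : F, ∑ d : F, quadraticChar F (twistDisc a b c d) = 0 := by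
  refine Finset.sum_eq_zero fun a _ => ?_
  by_cases ha : a = 0
  · subst ha
    refine Finset.sum_eq_zero fun b _ => Finset.sum_eq_zero fun c _ => ?_
    by_cases hb : b = 0
    · subst hb; simp [twistDisc]
    · rw [sum_zero_lead h2 h3 hb c (fun x => quadraticChar F x), quadraticChar_sum_zero h2]
  · refine Finset.sum_eq_zero fun b _ => ?_
    simp only [char_twistDisc h3 ha]
    rw [sum_shift h3 ha b (fun h u => quadraticChar F (u ^ 2 - 4 * h ^ 3)),
      sum_char_weierstrass h2]

/-- The forms of discriminant zero. -/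
theorem sum_zero_twistDisc (h2 : ringChar F ≠ 2) (h3 : (3 : F) ≠ 0) :
    ∑ a : F, ∑ b : F, ∑ c : F, ∑ d : F, (if twistDisc a b c d = 0 then (1 : ℤ) else 0) =
      (Fintype.card F : ℤ) ^ 3 + (Fintype.card F : ℤ) ^ 2 - Fintype.card F := by
  set q : ℤ := (Fintype.card F : ℤ)
  have hne : ∀ a : F, a ≠ 0 → ∀ b : F,
      ∑ c : F, ∑ d : F, (if twistDisc a b c d = 0 then (1 : ℤ) else 0) = q := by
    intro a ha b
    have e : ∀ c d, (twistDisc a b c d = 0) =
        ((2 * b ^ 3 - 9 * a * b * c + 27 * a ^ 2 * d) ^ 2 - 4 * (b ^ 2 - 3 * a * c) ^ 3 = 0) := by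
      intro c d
      rw [← twistDisc_mul, show (9 : F) * a ^ 2 = (3 * a) ^ 2 by ring, mul_eq_zero,
        eq_iff_iff, or_iff_right (pow_ne_zero _ (mul_ne_zero h3 ha))]
    simp only [e]
    rw [sum_shift h3 ha b (fun h u => if u ^ 2 - 4 * h ^ 3 = 0 then (1 : ℤ) else 0)]
    exact card_weierstrass h2
  have h0 : ∀ b : F, ∑ c : F, ∑ d : F, (if twistDisc 0 b c d = 0 then (1 : ℤ) else 0) =
      if b = 0 then q ^ 2 else q := by
    intro b
    split_ifs with hb
    · subst hb
      simp [twistDisc, q, pow_two]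
    · rw [Finset.sum_congr rfl fun c _ =>
        sum_zero_lead h2 h3 hb c (fun x => if x = 0 then (1 : ℤ) else 0)]
      simp [q]
  have h0' : ∑ b : F, (if b = 0 then q ^ 2 else q) = q ^ 2 + (q - 1) * q := by
    rw [← Finset.add_sum_erase _ _ (Finset.mem_univ (0 : F)), if_pos rfl,
      Finset.sum_congr rfl fun x hx => if_neg (Finset.ne_of_mem_erase hx), Finset.sum_const,
      Finset.card_erase_of_mem (Finset.mem_univ _), Finset.card_univ, nsmul_eq_mul,
      Nat.cast_sub Fintype.card_pos, Nat.cast_one]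
  rw [← Finset.add_sum_erase _ _ (Finset.mem_univ (0 : F)),
    Finset.sum_congr rfl fun b _ => h0 b, h0',
    Finset.sum_congr rfl fun a ha => Finset.sum_congr rfl fun b _ =>
      hne a (Finset.ne_of_mem_erase ha) b]
  simp only [Finset.sum_const, Finset.card_erase_of_mem (Finset.mem_univ _), Finset.card_univ,
    nsmul_eq_mul, Nat.cast_sub Fintype.card_pos, Nat.cast_one]
  ring

end FA.ThreeTorsionLocal
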