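import Fermat.Agent.ThreeTorsion.Fields
import Fermat.Agent.Root.SummaryAmbiguousClasses
import Fermat.Agent.Root.SummaryIwasawaGrowth

/-!
# Class numbers along `ℤ₃`-extensions of quadratic fields

If `3` does not split in a quadratic field and does not divide its class number, it divides no class
number along a `ℤ₃`-extension (Iwasawa).
-/

set_option autoImplicit false

noncomputable section

open NumberField IsDedekindDomain Module
open scoped Classical

namespace FA.ThreeTorsionLocal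

open FA.ThreeTorsion FA.AmbClass FA.ArtinRec

variable {K : Type} [Field K] [NumberField K]

theorem three_prime_unique (hK : finrank ℚ K = 2) (h3 : discr K % 3 ≠ 1)
    {P P' : HeightOneSpectrum (𝓞 K)} (hP : (3 : 𝓞 K) ∈ P.asIdeal) (hP' : (3 : 𝓞 K) ∈ P'.asIdeal) :
    P = P' := by
  obtain ⟨Q⟩ := exists_qdata hK
  rw [← Q.disc_eq_discr] at h3
  have hint : ∀ (R : HeightOneSpectrum (𝓞 K)), (3 : 𝓞 K) ∈ R.asIdeal → ∀ m : ℤ,
      (m : 𝓞 K) ∈ R.asIdeal → (3 : ℤ) ∣ m := by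
    intro R hR m hm
    by_contra hn
    obtain ⟨a, b, hab⟩ := ((Int.prime_three).coprime_iff_not_dvd).mpr hn
    refine R.isPrime.ne_top ((Ideal.eq_top_iff_one _).mpr ?_)
    have : (1 : 𝓞 K) = (a : 𝓞 K) * 3 + (b : 𝓞 K) * (m : 𝓞 K) := by
      exact_mod_cast congrArg (Int.cast : ℤ → 𝓞 K) hab.symm
    rw [this]
    exact add_mem (Ideal.mul_mem_left _ _ hR) (Ideal.mul_mem_left _ _ hm)
  have h2 : (2 : 𝓞 K) ∉ P'.asIdeal := fun h => by
    have := hint P' hP' 2 (by exact_mod_cast h)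
    omega
  refine HeightOneSpectrum.ext (Ideal.IsMaximal.eq_of_le P.isMaximal P'.isPrime.ne_top
    fun x hx => ?_)
  set c := Q.oc x
  set a := 2 * Q.rc x + Q.t * c
  have hn : (3 : ℤ) ∣ Q.nrm x := hint P hP _ (by
    rw [Q.nrm_eq]
    exact Ideal.mul_mem_right _ _ hx)
  have h4 : 4 * Q.nrm x = a ^ 2 - Q.disc * c ^ 2 := by
    simp only [QData.nrm, QData.disc, a, c]; ring
  have h4' : (3 : ℤ) ∣ a ^ 2 - Q.disc * c ^ 2 := h4 ▸ Dvd.dvd.mul_left hn 4
  have hmod : (3 : ℤ) ∣ a ∧ ((3 : ℤ) ∣ c ∨ (3 : ℤ) ∣ Q.disc) := by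
    have hz : ∀ u v w : ZMod 3, u ^ 2 - v * w ^ 2 = 0 → v ≠ 1 → u = 0 ∧ (w = 0 ∨ v = 0) := by
      decide
    have hv : ((Q.disc : ℤ) : ZMod 3) ≠ 1 := fun h => by
      have := (ZMod.intCast_eq_intCast_iff_dvd_sub 1 Q.disc 3).mp (by exact_mod_cast h.symm)
      omega
    have h := hz (a : ZMod 3) (Q.disc : ZMod 3) (c : ZMod 3) (by
      have := (ZMod.intCast_zmod_eq_zero_iff_dvd _ 3).mpr h4'
      push_cast at this
      exact this) hv
    simpa only [ZMod.intCast_zmod_eq_zero_iff_dvd, Nat.cast_ofNat] using h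
  have hmem : ∀ m : ℤ, (3 : ℤ) ∣ m → (m : 𝓞 K) ∈ P'.asIdeal := by
    rintro m ⟨r, rfl⟩
    push_cast
    exact Ideal.mul_mem_right _ _ hP'
  have hcw : (c : 𝓞 K) * Q.sqrtD ∈ P'.asIdeal := by
    rcases hmod.2 with hc | hd
    · exact Ideal.mul_mem_right _ _ (hmem c hc)
    · exact Ideal.mul_mem_left _ _ ((P'.isPrime.mem_or_mem
        (Q.sqrtD_sq ▸ hmem _ hd : Q.sqrtD * Q.sqrtD ∈ P'.asIdeal)).elim id id)
  have e : (2 : 𝓞 K) * x = (a : 𝓞 K) + (c : 𝓞 K) * Q.sqrtD := by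
    conv_lhs => rw [Q.expand x]
    simp only [a, c, QData.sqrtD]
    push_cast
    ring
  exact ((P'.isPrime.mem_or_mem (e ▸ add_mem (hmem a hmod.1) hcw :
    (2 : 𝓞 K) * x ∈ P'.asIdeal))).resolve_left h2

/-- The class numbers along every `ℤ₃`-extension are prime to `3`. -/
def TowersPrimeToThree (K : Type) [Field K] [NumberField K] : Prop :=
  ∀ (F : ℕ → IntermediateField K (AlgebraicClosure K)) [∀ n, NumberField (F n)],
    (∀ n, IsGalois K (F n)) → (∀ n, IsCyclic (F n ≃ₐ[K] F n)) →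
    (∀ n, finrank K (F n) = 3 ^ n) → Monotone F → ∀ n, ¬ 3 ∣ classNumber (F n)

theorem towers_of_not_dvd (hK : finrank ℚ K = 2) (h3 : discr K % 3 ≠ 1)
    (hh : ¬ 3 ∣ classNumber K) : TowersPrimeToThree K := by
  intro F _ hgal hcyc hdeg hmono n
  have := Fact.mk Nat.prime_three
  obtain ⟨hin, hinf, -⟩ := FA.Summary.zpExtension_ramification F hgal hcyc hdeg hmono
  haveI := hgal n
  haveI := hcyc n
  refine FA.Summary.iwasawa_not_dvd_classNumber K (F n) Nat.prime_three (hdeg n) ?_ hh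
  have hempty : IsEmpty {v : InfinitePlace K // ¬ v.IsUnramifiedIn (F n)} := by
    refine ⟨fun ⟨v, hv⟩ => hv ?_⟩
    obtain ⟨w, rfl⟩ := InfinitePlace.comap_surjective (K := F n) v
    rw [InfinitePlace.isUnramifiedIn_comap, InfinitePlace.isUnramified_iff_card_stabilizer_eq_one,
      hinf n w]
    simp
  have hsub : Subsingleton
      {v : HeightOneSpectrum (𝓞 K) // v.asIdeal.ramificationIdxIn (𝓞 (F n)) ≠ 1} := by
    have hmem : ∀ v : HeightOneSpectrum (𝓞 K), v.asIdeal.ramificationIdxIn (𝓞 (F n)) ≠ 1 →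
        (3 : 𝓞 K) ∈ v.asIdeal := by
      intro v hv
      obtain ⟨Q, rfl⟩ := exists_belowP K (F n) v
      by_contra hn
      haveI : Q.asIdeal.LiesOver (belowP K Q).asIdeal := ⟨rfl⟩
      haveI := (belowP K Q).isMaximal
      haveI : Finite (𝓞 K ⧸ (belowP K Q).asIdeal) :=
        Ideal.finiteQuotientOfFreeOfNeBot _ (belowP K Q).ne_bot
      refine hv ?_
      rw [← Ideal.card_inertia_eq_ramificationIdxIn (G := F n ≃ₐ[K] F n) (belowP K Q).asIdeal
        Q.asIdeal, hin n Q ?_]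
      · simp
      · intro h
        refine hn ?_
        rw [Ideal.mem_of_liesOver Q.asIdeal (belowP K Q).asIdeal, map_ofNat]
        exact_mod_cast h
    exact ⟨fun v w => Subtype.ext (three_prime_unique hK h3 (hmem v.1 v.2) (hmem w.1 w.2))⟩
  rw [Nat.card_of_isEmpty (α := {v : InfinitePlace K // ¬ v.IsUnramifiedIn (F n)}), add_zero]
  exact Finite.card_le_one_iff_subsingleton.mpr hsub

end FA.ThreeTorsionLocal
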