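import Fermat.Agent.ThreeTorsion.Sieve
import Fermat.Agent.ThreeTorsionLocal.Character
import Mathlib.NumberTheory.LegendreSymbol.JacobiSymbol
import Mathlib.Tactic.NormNum.LegendreSymbol

/-!
# Forms with prescribed behaviour at a prime

`kron p D` is `1`, `-1`, `0` as `p` splits, is inert or ramifies in the field of discriminant `D`.
Among the good forms the three cases have the proportions `p / (2 (p + 1))`, the same,
`1 / (p + 1)`.
-/

set_option autoImplicit false

noncomputable section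

open FA.Thue FA.DeloneFaddeev FA.CubicFormCount FA.CubicFields FA.ThreeTorsion
open scoped Classical

namespace FA.ThreeTorsionLocal

/-- The Kronecker symbol `(D / p)`. -/
def kron (p : ℕ) (D : ℤ) : ℤ :=
  if p = 2 then (if D % 2 = 0 then 0 else if D % 8 = 1 then 1 else -1) else jacobiSym D p

/-- The share of a behaviour. -/
def wt (p : ℕ) (v : ℤ) : ℝ := if v = 0 then 1 / ((p : ℝ) + 1) else p / (2 * ((p : ℝ) + 1))

/-- The modulus at `p`. -/
def locMod (p : ℕ) : ℕ := if p = 2 then 8 else p ^ 2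

/-- The good forms with behaviour `v` at `p ≠ 3`. -/
def typeSet (p : ℕ) (v : ℤ) : Set CubicForm :=
  {f | f ∉ sharpBad p ∧ kron p (-3 * f.disc) = v}

/-- The good forms with behaviour `v` at `3`. -/
def threeSet (v : ℤ) : Set CubicForm :=
  {f | ∃ g, f = tri g ∧ ¬ (9 : ℤ) ∣ redDisc g ∧ kron 3 (redDisc g) = v}

theorem kron_trichotomy (p : ℕ) (D : ℤ) : kron p D = 0 ∨ kron p D = 1 ∨ kron p D = -1 := by
  unfold kron
  split_ifs <;> simp [jacobiSym.trichotomy]

theorem kron_three (D : ℤ) :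
    kron 3 D = if D % 3 = 0 then 0 else if D % 3 = 1 then 1 else -1 := by
  rw [kron, if_neg (by norm_num), jacobiSym.mod_left]
  have h0 : (0 : ℤ) ≤ D % 3 := Int.emod_nonneg _ (by norm_num)
  have h1 : D % 3 < 3 := Int.emod_lt_of_pos _ (by norm_num)
  norm_cast
  rcases (by omega : D % 3 = 0 ∨ D % 3 = 1 ∨ D % 3 = 2) with h | h | h <;>
    simp only [Nat.cast_ofNat, h] <;> norm_num <;> rfl

theorem kron_congr {p : ℕ} {D E : ℤ} (h : (locMod p : ℤ) ∣ D - E) : kron p D = kron p E := by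
  unfold kron locMod at *
  split_ifs at * with h2 <;> try omega
  exact jacobiSym.mod_left' (Int.modEq_iff_dvd.mpr (dvd_sub_comm.mp
    ((dvd_pow_self (p : ℤ) two_ne_zero).trans (by exact_mod_cast h))))

theorem disc_congr {m : ℕ} {f g : CubicForm} (h : FormCongr (m : ℤ) f g) :
    (m : ℤ) ∣ f.disc - g.disc := by
  have e : ∀ x y : ℤ, (m : ℤ) ∣ x - y → ((x : ZMod m) = y) := fun x y hxy =>
    ((ZMod.intCast_eq_intCast_iff_dvd_sub y x m).mpr hxy).symm
  refine (ZMod.intCast_eq_intCast_iff_dvd_sub g.disc f.disc m).mp ?_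
  simp only [CubicForm.disc]
  push_cast
  rw [e _ _ h.1, e _ _ h.2.1, e _ _ h.2.2.1, e _ _ h.2.2.2]

theorem sq_dvd_locMod (p : ℕ) : p ^ 2 ∣ locMod p := by
  unfold locMod
  split_ifs with h
  · subst h; norm_num
  · exact dvd_rfl

theorem periodic_of_dvd {m n : ℕ} (h : m ∣ n) {Q : Set CubicForm} (hQ : PeriodicSet m Q) :
    PeriodicSet n Q := fun v w hvw =>
  hQ v w fun i => (Int.natCast_dvd_natCast.mpr h).trans (hvw i)

theorem periodic_typeSet (p : ℕ) (v : ℤ) : PeriodicSet (locMod p) (typeSet p v) := by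
  rintro x y h ⟨hb, hk⟩
  have hper := periodic_of_dvd (sq_dvd_locMod p) (periodic_compl (periodic_sharpBad p))
  refine ⟨hper x y h hb, ?_⟩
  rw [← hk]
  refine (kron_congr ?_).symm
  rw [← mul_sub]
  exact Dvd.dvd.mul_left (disc_congr (f := mkForm x) (g := mkForm y) ⟨h 0, h 1, h 2, h 3⟩) _

theorem invariant_typeSet (p : ℕ) (v : ℤ) :
    ∀ f g, Twisted f g → f ∈ typeSet p v → g ∈ typeSet p v := fun f g h hf =>
  ⟨fun hg => hf.1 (invariant_sharpBad p g f (twisted_symm h) hg),
    by rw [twisted_disc h]; exact hf.2⟩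

theorem invariant_threeSet (v : ℤ) :
    ∀ f g, Twisted f g → f ∈ threeSet v → g ∈ threeSet v := by
  rintro f h e ⟨g, rfl, hg, hv⟩
  obtain ⟨g', rfl, -⟩ := twisted_tri e
  have hd := twisted_disc e
  rw [disc_tri, disc_tri] at hd
  have : redDisc g' = redDisc g := by linarith
  exact ⟨g', rfl, by rwa [this], by rwa [this]⟩

theorem nine_congr {g g' : CubicForm} (h : FormCongr 9 g g') :
    (9 : ℤ) ∣ redDisc g - redDisc g' := by
  have e : ∀ u w : ℤ, 9 ∣ u - w → ((u : ZMod 9) = w) := fun u w huw =>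
    ((ZMod.intCast_eq_intCast_iff_dvd_sub w u 9).mpr huw).symm
  refine (ZMod.intCast_eq_intCast_iff_dvd_sub (redDisc g') (redDisc g) 9).mp ?_
  rw [redDisc, redDisc, cast_rDisc, cast_rDisc, e _ _ h.1, e _ _ h.2.1, e _ _ h.2.2.1,
    e _ _ h.2.2.2]

theorem periodic_threeSet (v : ℤ) : PeriodicSet 27 (threeSet v) := by
  rintro x y h ⟨g, hg, h9, hv⟩
  obtain ⟨g', hg', h9'⟩ := periodic_goodThree x y h ⟨g, hg, h9⟩
  refine ⟨g', hg', h9', ?_⟩
  rw [← hv]
  simp only [mkForm, tri, CubicForm.mk.injEq] at hg hg'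
  have h0 := h 0; have h1 := h 1; have h2 := h 2; have h3 := h 3
  push_cast at h0 h1 h2 h3
  refine kron_congr ?_
  show ((3 ^ 2 : ℕ) : ℤ) ∣ redDisc g' - redDisc g
  exact nine_congr ⟨by omega, by omega, by omega, by omega⟩

theorem card_residues_lift {m k : ℕ} (hm : 0 < m) (hk : 0 < k) {Q : Set CubicForm}
    (hQ : PeriodicSet m Q) :
    (residues (m * k) Q).card = k ^ 4 * (residues m Q).card := by
  have hm' : (0 : ℤ) < m := by exact_mod_cast hm
  set K := Fintype.piFinset fun _ : Fin 4 => Finset.Ico (0 : ℤ) k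
  have hK : K.card = k ^ 4 := by
    rw [Fintype.card_piFinset_const, Int.card_Ico, sub_zero, Int.toNat_natCast]
  rw [← hK, ← Finset.card_product]
  refine Finset.card_bij' (fun v _ => (fun i => v i / (m : ℤ), fun i => v i % (m : ℤ)))
    (fun q _ i => q.2 i + (m : ℤ) * q.1 i) ?_ ?_ ?_ ?_
  · intro v hv
    obtain ⟨hb, hq⟩ := mem_residues.mp hv
    simp only [Finset.mem_Ico, Nat.cast_mul] at hb
    simp only [Finset.mem_product, K, Fintype.mem_piFinset, Finset.mem_Ico]
    refine ⟨fun i => ⟨Int.ediv_nonneg (hb i).1 hm'.le,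
      Int.ediv_lt_of_lt_mul hm' (by rw [mul_comm]; exact (hb i).2)⟩,
      mem_residues.mpr ⟨fun i => Finset.mem_Ico.mpr ⟨Int.emod_nonneg _ hm'.ne',
        Int.emod_lt_of_pos _ hm'⟩, hQ v _ (fun i => Int.dvd_self_sub_emod) hq⟩⟩
  · intro q hq
    simp only [Finset.mem_product, K, Fintype.mem_piFinset, Finset.mem_Ico] at hq
    obtain ⟨h1, h2⟩ := hq
    obtain ⟨hb, hQ'⟩ := mem_residues.mp h2
    simp only [Finset.mem_Ico] at hb
    refine mem_residues.mpr ⟨fun i => Finset.mem_Ico.mpr ⟨?_, ?_⟩, hQ q.2 _ (fun i => ?_) hQ'⟩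
    · nlinarith [(h1 i).1, (hb i).1]
    · push_cast; nlinarith [(h1 i).2, (hb i).2]
    · exact ⟨-q.1 i, by ring⟩
  · intro v hv
    funext i
    exact Int.emod_add_mul_ediv _ _
  · intro q hq
    simp only [Finset.mem_product, K, Fintype.mem_piFinset, Finset.mem_Ico] at hq
    obtain ⟨h1, h2⟩ := hq
    have hb := fun i => Finset.mem_Ico.mp ((mem_residues.mp h2).1 i)
    ext i
    · simp only
      rw [Int.add_mul_ediv_left _ _ hm'.ne', Int.ediv_eq_zero_of_lt (hb i).1 (hb i).2, zero_add]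
    · simp only
      rw [Int.add_mul_emod_self_left, Int.emod_eq_of_lt (hb i).1 (hb i).2]

theorem density_lift {m k : ℕ} (hm : 0 < m) (hk : 0 < k) {Q : Set CubicForm}
    (hQ : PeriodicSet m Q) : density (m * k) Q = density m Q := by
  have hm' : (m : ℝ) ≠ 0 := by exact_mod_cast hm.ne'
  have hk' : (k : ℝ) ≠ 0 := by exact_mod_cast hk.ne'
  rw [density, density, card_residues_lift hm hk hQ]
  push_cast
  field_simp

theorem card_residues_table {m : ℕ} {Q : Set CubicForm} (P : (ℕ × ℕ) × (ℕ × ℕ) → Prop)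
    [DecidablePred P]
    (h : ∀ x : (ℕ × ℕ) × (ℕ × ℕ), mkForm ![(x.1.1 : ℤ), x.1.2, x.2.1, x.2.2] ∈ Q ↔ P x) :
    (residues m Q).card = (((Finset.range m ×ˢ Finset.range m) ×ˢ
      (Finset.range m ×ˢ Finset.range m)).filter P).card := by
  have hv : ∀ v : Fin 4 → ℤ, (∀ i, 0 ≤ v i) → ![(((v 0).toNat : ℕ) : ℤ), ((v 1).toNat : ℕ),
      ((v 2).toNat : ℕ), ((v 3).toNat : ℕ)] = v := fun v hv => by
    funext i; fin_cases i <;> simp [Int.toNat_of_nonneg (hv _)]
  refine Finset.card_bij' (fun v _ => (((v 0).toNat, (v 1).toNat), ((v 2).toNat, (v 3).toNat)))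
    (fun x _ => ![(x.1.1 : ℤ), x.1.2, x.2.1, x.2.2]) ?_ ?_ ?_ ?_
  · intro v hr
    obtain ⟨hb, hq⟩ := mem_residues.mp hr
    simp only [Finset.mem_Ico] at hb
    refine Finset.mem_filter.mpr ⟨?_, (h _).mp ?_⟩
    · have := hb 0; have := hb 1; have := hb 2; have := hb 3
      simp only [Finset.mem_product, Finset.mem_range]
      omega
    · simp only [hv v fun i => (hb i).1]
      exact hq
  · intro x hx
    obtain ⟨hb, hP⟩ := Finset.mem_filter.mp hx
    simp only [Finset.mem_product, Finset.mem_range] at hb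
    refine mem_residues.mpr ⟨fun i => ?_, (h x).mpr hP⟩
    fin_cases i <;> simp <;> omega
  · intro v hr
    obtain ⟨hb, -⟩ := mem_residues.mp hr
    exact hv v fun i => (Finset.mem_Ico.mp (hb i)).1
  · intro x _
    simp

theorem card_residues_split {p : ℕ} (m : ℕ) :
    (residues m (sharpBad p)ᶜ).card = (residues m (typeSet p 1)).card +
      ((residues m (typeSet p (-1))).card + (residues m (typeSet p 0)).card) := by
  rw [← Finset.card_union_of_disjoint, ← Finset.card_union_of_disjoint]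
  · congr 1
    ext v
    simp only [Finset.mem_union, mem_residues, typeSet, Set.mem_compl_iff, Set.mem_ofPred_eq]
    constructor
    · rintro ⟨hb, hq⟩
      rcases kron_trichotomy p (-3 * (mkForm v).disc) with h | h | h <;> tauto
    · rintro (⟨hb, h⟩ | ⟨hb, h⟩ | ⟨hb, h⟩) <;> exact ⟨hb, h.1⟩
  all_goals
    rw [Finset.disjoint_left]
    intro v h1 h2
    simp only [Finset.mem_union, mem_residues, typeSet, Set.mem_ofPred_eq] at h1 h2
    omega

theorem card_typeSet_odd {p : ℕ} (hp : p.Prime) (h2 : p ≠ 2) (h3 : p ≠ 3) {v : ℤ}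
    (hv : v = 1 ∨ v = -1) :
    2 * (residues (p ^ 2) (typeSet p v)).card + p ^ 7 + p ^ 6 = p ^ 8 + p ^ 5 := by
  haveI := Fact.mk hp
  set X : Set CubicForm := {f | kron p (-3 * f.disc) = v}
  have hperX : PeriodicSet p X := by
    intro x y h hx
    show _ = v
    rw [← (hx : _ = v)]
    unfold kron
    rw [if_neg h2, if_neg h2]
    refine jacobiSym.mod_left' (Int.modEq_iff_dvd.mpr ?_)
    rw [← mul_sub]
    exact Dvd.dvd.mul_left (disc_congr (f := mkForm x) (g := mkForm y) ⟨h 0, h 1, h 2, h 3⟩) _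
  have hkron : ∀ f : CubicForm, kron p (-3 * f.disc) =
      quadraticChar (ZMod p) (twistDisc (f.a : ZMod p) f.b f.c f.d) := by
    intro f
    rw [kron, if_neg h2, ← jacobiSym.legendreSym.to_jacobiSym, legendreSym]
    congr 1
    simp [twistDisc, CubicForm.disc]
  have hset : typeSet p v = X := by
    ext f
    refine ⟨fun h => h.2, fun h => ⟨fun hb => ?_, h⟩⟩
    have hd := (sharpBad_iff_odd hp h2 h3 f).mp hb
    have h0 : kron p (-3 * f.disc) = 0 := by
      rw [kron, if_neg h2, ← jacobiSym.legendreSym.to_jacobiSym, legendreSym.eq_zero_iff,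
        ZMod.intCast_zmod_eq_zero_iff_dvd]
      exact Dvd.dvd.mul_left ((dvd_pow_self _ two_ne_zero).trans hd) _
    rw [(h : _ = v)] at h0
    omega
  have hF2 : ringChar (ZMod p) ≠ 2 := by rwa [ZMod.ringChar_zmod_n]
  have hF3 : (3 : ZMod p) ≠ 0 := fun h => h3 ((Nat.prime_dvd_prime_iff_eq hp Nat.prime_three).mp
    ((ZMod.natCast_eq_zero_iff 3 p).mp (by exact_mod_cast h)))
  rw [hset, pow_two, card_residues_lift hp.pos hp.pos hperX]
  set N := (Finset.univ.filter fun q : (ZMod p × ZMod p) × (ZMod p × ZMod p) =>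
    quadraticChar (ZMod p) (twistDisc q.1.1 q.1.2 q.2.1 q.2.2) = v).card
  have hN : (residues p X).card = N := by
    refine Finset.card_bij' (fun x _ => (((x 0 : ZMod p), (x 1 : ZMod p)),
        ((x 2 : ZMod p), (x 3 : ZMod p))))
      (fun q _ => ![(q.1.1.val : ℤ), q.1.2.val, q.2.1.val, q.2.2.val]) ?_ ?_ ?_ ?_
    · intro x hx
      refine Finset.mem_filter.mpr ⟨Finset.mem_univ _, ?_⟩
      rw [← (mem_residues.mp hx).2, hkron]
      rfl
    · intro q hq
      refine mem_residues.mpr ⟨fun i => Finset.mem_Ico.mpr ?_, ?_⟩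
      · fin_cases i <;> exact ⟨Int.natCast_nonneg _, Nat.cast_lt.mpr (ZMod.val_lt _)⟩
      · show _ = v
        rw [hkron, ← (Finset.mem_filter.mp hq).2]
        simp [mkForm]
    · intro x hx
      have hb := fun i => Finset.mem_Ico.mp ((mem_residues.mp hx).1 i)
      funext i
      fin_cases i <;> simp [ZMod.coe_intCast, Int.emod_eq_of_lt (hb _).1 (hb _).2]
    · intro q _
      simp
  have hsum : 2 * (N : ℤ) = (p : ℤ) ^ 4 - ((p : ℤ) ^ 3 + (p : ℤ) ^ 2 - p) := by
    have e : ∀ a b c d : ZMod p,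
        2 * (if quadraticChar (ZMod p) (twistDisc a b c d) = v then (1 : ℤ) else 0) =
          v * quadraticChar (ZMod p) (twistDisc a b c d) + 1 -
            (if twistDisc a b c d = 0 then (1 : ℤ) else 0) := by
      intro a b c d
      by_cases h : twistDisc a b c d = 0
      · rw [h, quadraticChar_zero, if_pos rfl, if_neg (by omega)]
        ring
      · rw [if_neg h]
        rcases quadraticChar_dichotomy h with h' | h' <;> rw [h'] <;>
          rcases hv with rfl | rfl <;> norm_num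
    have hN' : (N : ℤ) = ∑ a : ZMod p, ∑ b : ZMod p, ∑ c : ZMod p, ∑ d : ZMod p,
        (if quadraticChar (ZMod p) (twistDisc a b c d) = v then (1 : ℤ) else 0) := by
      simp only [N, Finset.card_filter, Fintype.sum_prod_type]
      push_cast
      rfl
    rw [hN', Finset.mul_sum]
    simp only [Finset.mul_sum, e, Finset.sum_sub_distrib, Finset.sum_add_distrib]
    simp only [← Finset.mul_sum]
    rw [sum_char_twistDisc hF2 hF3, sum_zero_twistDisc hF2 hF3]
    simp
    ring
  rw [hN]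
  have : ((2 * (p ^ 4 * N) + p ^ 7 + p ^ 6 : ℕ) : ℤ) = ((p ^ 8 + p ^ 5 : ℕ) : ℤ) := by
    push_cast
    linear_combination (p : ℤ) ^ 4 * hsum
  exact_mod_cast this

theorem card_typeSet_two {v : ℤ} (hv : v = 1 ∨ v = -1) :
    (residues 8 (typeSet 2 v)).card = 768 := by
  have e : ∀ f : CubicForm, f ∈ typeSet 2 v ↔
      (-3 * f.disc) % 8 = (if v = 1 then 1 else 5) := by
    intro f
    simp only [typeSet, Set.mem_ofPred_eq, sharpBad_iff_two, kron, if_true]
    have : f.disc % 4 = 0 ∨ f.disc % 4 = 1 := by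
      have h : f.disc = (f.b * f.c - f.a * f.d) ^ 2 +
          4 * (-f.a * f.c ^ 3 - f.b ^ 3 * f.d - 7 * f.a ^ 2 * f.d ^ 2 +
            5 * f.a * f.b * f.c * f.d) := by
        simp only [CubicForm.disc]; ring
      rcases Int.even_or_odd (f.b * f.c - f.a * f.d) with ⟨j, hj⟩ | ⟨j, hj⟩ <;>
        rw [hj] at h <;> ring_nf at h <;> omega
    rcases hv with rfl | rfl <;> constructor
    · rintro ⟨h1, h2⟩
      split_ifs at h2 ⊢ <;> omega
    · intro h
      refine ⟨by simp only [if_true] at h; omega, ?_⟩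
      simp only [if_true] at h
      rw [if_neg (by omega), if_pos h]
    · rintro ⟨h1, h2⟩
      rw [if_neg (by norm_num)]
      split_ifs at h2 <;> omega
    · intro h
      rw [if_neg (by norm_num)] at h
      refine ⟨by omega, ?_⟩
      rw [if_neg (by omega), if_neg (by omega)]
  rw [card_residues_table (fun x => (-3 * CubicForm.disc ⟨x.1.1, x.1.2, x.2.1, x.2.2⟩) % 8 =
    (if v = 1 then (1 : ℤ) else 5)) fun x => e _]
  rcases hv with rfl | rfl <;> (unfold CubicForm.disc; decide +kernel)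

theorem density_typeSet {p : ℕ} (hp : p.Prime) (h3 : p ≠ 3) {v : ℤ}
    (hv : v = 0 ∨ v = 1 ∨ v = -1) :
    density (locMod p) (typeSet p v) = wt p v * sharpFactor p := by
  have hp0 : (p : ℝ) ≠ 0 := by exact_mod_cast hp.ne_zero
  have hp1 : (p : ℝ) + 1 ≠ 0 := by positivity
  have key : ∀ w : ℤ, w = 1 ∨ w = -1 →
      density (locMod p) (typeSet p w) = (p : ℝ) / (2 * ((p : ℝ) + 1)) * sharpFactor p := by
    intro w hw
    by_cases h2 : p = 2
    · subst h2
      rw [show locMod 2 = 8 from rfl, density, card_typeSet_two hw, sharpFactor]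
      norm_num
    · have h := card_typeSet_odd hp h2 h3 hw
      rw [locMod, if_neg h2, density, sharpFactor]
      have e : 2 * ((residues (p ^ 2) (typeSet p w)).card : ℝ) + (p : ℝ) ^ 7 + (p : ℝ) ^ 6 =
          (p : ℝ) ^ 8 + (p : ℝ) ^ 5 := by exact_mod_cast h
      rw [show ((residues (p ^ 2) (typeSet p w)).card : ℝ) =
        ((p : ℝ) ^ 8 + (p : ℝ) ^ 5 - (p : ℝ) ^ 7 - (p : ℝ) ^ 6) / 2 by linarith]
      push_cast
      field_simp
      ring
  rcases hv with rfl | hv
  · have hs := card_residues_split (p := p) (locMod p)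
    have hgood : density (locMod p) (sharpBad p)ᶜ = sharpFactor p := by
      rw [← density_compl_sharpBad hp]
      obtain ⟨k, hk⟩ := sq_dvd_locMod p
      rw [hk]
      refine density_lift (pow_pos hp.pos 2) ?_ (periodic_compl (periodic_sharpBad p))
      rcases Nat.eq_zero_or_pos k with rfl | hk'
      · simp [locMod] at hk; split_ifs at hk <;> simp_all
      · exact hk'
    have e : density (locMod p) (sharpBad p)ᶜ = density (locMod p) (typeSet p 1) +
        (density (locMod p) (typeSet p (-1)) + density (locMod p) (typeSet p 0)) := by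
      simp only [density, hs]
      push_cast
      ring
    rw [hgood, key 1 (Or.inl rfl), key (-1) (Or.inr rfl)] at e
    rw [wt, if_pos rfl]
    have : density (locMod p) (typeSet p 0) = sharpFactor p -
        2 * ((p : ℝ) / (2 * ((p : ℝ) + 1)) * sharpFactor p) := by linarith
    rw [this]
    field_simp
    ring
  · rw [key v hv, wt, if_neg (by omega)]

/-- The residues modulo `9` with a behaviour at `3`. -/
def nineOf (r : ℕ) : Finset ((ℕ × ℕ) × (ℕ × ℕ)) :=
  goodNine.filter fun x => rDisc (x.1.1 : ℤ) x.1.2 x.2.1 x.2.2 % 3 = (r : ℤ)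

theorem card_nineOf :
    (nineOf 0).card = 1296 ∧ (nineOf 1).card = 1944 ∧ (nineOf 2).card = 1944 := by
  unfold nineOf goodNine rDisc
  decide +kernel

attribute [local irreducible] nineOf goodNine residues in
theorem card_threeSet {v : ℤ} {r : ℕ} (hr : r < 3)
    (hv : v = if r = 0 then 0 else if r = 1 then 1 else -1) :
    (residues 27 (threeSet v)).card = 9 * (nineOf r).card := by
  have hk : ∀ D : ℤ, kron 3 D = v ↔ D % 3 = (r : ℤ) := by
    intro D
    rw [kron_three, hv]
    interval_cases r <;> simp <;> omega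
  rw [show 9 * (nineOf r).card = ((Finset.range 3 ×ˢ Finset.range 3) ×ˢ nineOf r).card by
    rw [Finset.card_product, Finset.card_product]; rfl]
  refine Finset.card_bij' (fun x _ => (((x 0).toNat / 9, (x 3).toNat / 9),
      (((x 0).toNat % 9, (x 1).toNat / 3), ((x 2).toNat / 3, (x 3).toNat % 9))))
    (fun x _ => ![((9 * x.1.1 + x.2.1.1 : ℕ) : ℤ), ((3 * x.2.1.2 : ℕ) : ℤ),
      ((3 * x.2.2.1 : ℕ) : ℤ), ((9 * x.1.2 + x.2.2.2 : ℕ) : ℤ)]) ?_ ?_ ?_ ?_
  · intro x hx
    obtain ⟨hb, g, hg, h9, hkv⟩ := mem_residues.mp hx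
    simp only [Finset.mem_Ico] at hb
    have := hb 0; have := hb 1; have := hb 2; have := hb 3
    simp only [mkForm, tri, CubicForm.mk.injEq] at hg
    obtain ⟨e0, e1, e2, e3⟩ := hg
    simp only [nineOf, goodNine, Finset.mem_product, Finset.mem_range, Finset.mem_filter]
    set g' : CubicForm := ⟨(((x 0).toNat % 9 : ℕ) : ℤ), (((x 1).toNat / 3 : ℕ) : ℤ),
      (((x 2).toNat / 3 : ℕ) : ℤ), (((x 3).toNat % 9 : ℕ) : ℤ)⟩
    have hc : FormCongr 9 g g' := by
      refine ⟨?_, ?_, ?_, ?_⟩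
      all_goals simp only [g']; omega
    refine ⟨⟨by omega, by omega⟩, ⟨⟨⟨by omega, by omega⟩, by omega, by omega⟩, ?_⟩, ?_⟩
    · exact fun hz => h9 ((redDisc_congr hc).mpr (Int.dvd_of_emod_eq_zero hz))
    · rw [← (hk _).mp hkv]
      have := nine_congr hc
      show redDisc g' % 3 = redDisc g % 3
      omega
  · intro x hx
    simp only [nineOf, goodNine, Finset.mem_product, Finset.mem_range, Finset.mem_filter] at hx
    obtain ⟨⟨h1, h2⟩, ⟨⟨⟨h3, h4⟩, h5, h6⟩, h7⟩, h8⟩ := hx
    set g : CubicForm := ⟨((9 * x.1.1 + x.2.1.1 : ℕ) : ℤ), x.2.1.2, x.2.2.1,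
      ((9 * x.1.2 + x.2.2.2 : ℕ) : ℤ)⟩
    set g' : CubicForm := ⟨x.2.1.1, x.2.1.2, x.2.2.1, x.2.2.2⟩
    have hc : FormCongr 9 g g' :=
      ⟨⟨x.1.1, by simp [g, g']⟩, ⟨0, by simp [g, g']⟩, ⟨0, by simp [g, g']⟩,
        ⟨x.1.2, by simp [g, g']⟩⟩
    refine mem_residues.mpr ⟨fun i => ?_, g, ?_, fun h => h7 ?_, (hk _).mpr ?_⟩
    · fin_cases i <;> simp only [Finset.mem_Ico] <;> simp <;> omega
    · ext <;> simp [mkForm, tri, g]
    · exact Int.emod_eq_zero_of_dvd ((redDisc_congr hc).mp h)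
    · rw [← h8]
      have := nine_congr hc
      show redDisc g % 3 = redDisc g' % 3
      omega
  · intro x hx
    obtain ⟨hb, g, hg, -, -⟩ := mem_residues.mp hx
    simp only [Finset.mem_Ico] at hb
    have := hb 0; have := hb 1; have := hb 2; have := hb 3
    simp only [mkForm, tri, CubicForm.mk.injEq] at hg
    funext i
    fin_cases i <;> simp <;> omega
  · intro x hx
    simp only [nineOf, goodNine, Finset.mem_product, Finset.mem_range, Finset.mem_filter] at hx
    ext <;> simp <;> omega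

end FA.ThreeTorsionLocal
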