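import Fermat.Agent.ThreeTorsion.Tail
import Fermat.Agent.ThreeTorsionLocal.Local

/-!
# Forms of fundamental discriminant with prescribed local behaviour

For a finite set `S` of primes with a behaviour `σ` the classes are the product of the shares times
all classes, asymptotically.
-/

set_option autoImplicit false

noncomputable section

open FA.Thue FA.DeloneFaddeev FA.CubicFormCount FA.CubicFields FA.ThreeTorsion Filter
open scoped Classical Topology Real

namespace FA.ThreeTorsionLocal

/-- The prescription. -/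
def Cond (S : Finset ℕ) (σ : ℕ → ℤ) (D : ℤ) : Prop := ∀ p ∈ S, kron p D = σ p

/-- A prescription at a finite set of primes. -/
def Valid (S : Finset ℕ) (σ : ℕ → ℤ) : Prop :=
  ∀ p ∈ S, p.Prime ∧ (σ p = 0 ∨ σ p = 1 ∨ σ p = -1)

/-- The share of a prescription. -/
def shareOf (S : Finset ℕ) (σ : ℕ → ℤ) : ℝ := ∏ p ∈ S, wt p (σ p)

theorem wt_pos {p : ℕ} (hp : p.Prime) (v : ℤ) : 0 < wt p v := by
  have : (0 : ℝ) < p := by exact_mod_cast hp.pos
  rw [wt]
  split_ifs <;> positivity

theorem shareOf_pos {S : Finset ℕ} {σ : ℕ → ℤ} (h : Valid S σ) : 0 < shareOf S σ :=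
  Finset.prod_pos fun p hp => wt_pos (h p hp).1 _

/-- The forms of fundamental reduced discriminant with the prescription. -/
def condForms (S : Finset ℕ) (σ : ℕ → ℤ) : Set CubicForm :=
  {f | ∃ g, f = tri g ∧ DiscGood (redDisc g) ∧ Cond S σ (redDisc g)}

/-- The set at `3`. -/
def locThree (S : Finset ℕ) (σ : ℕ → ℤ) : Set CubicForm :=
  if 3 ∈ S then threeSet (σ 3) else goodThree

/-- The set at `p ≠ 3`. -/
def locSet (S : Finset ℕ) (σ : ℕ → ℤ) (p : ℕ) : Set CubicForm :=
  if p ∈ S then typeSet p (σ p) else (sharpBad p)ᶜ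

/-- The conditions at `3` and at the primes of `T`. -/
def condGood (S : Finset ℕ) (σ : ℕ → ℤ) (T : Finset ℕ) : Set CubicForm :=
  {f | f ∈ locThree S σ ∧ ∀ p ∈ T, f ∈ locSet S σ p}

theorem kron_tri {p : ℕ} (hp : p.Prime) (h3 : p ≠ 3) (g : CubicForm) :
    kron p (-3 * (tri g).disc) = kron p (redDisc g) := by
  rw [disc_tri, show -3 * (-27 * redDisc g) = 9 ^ 2 * redDisc g by ring]
  unfold kron
  split_ifs with h2 <;> try omega
  rw [jacobiSym.mul_left, jacobiSym.sq_one', one_mul]
  show Int.gcd ((9 : ℕ) : ℤ) (p : ℤ) = 1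
  rw [Int.gcd_natCast_natCast]
  exact ((Nat.coprime_primes hp Nat.prime_three).mpr h3).symm.pow_left 2

theorem tri_mem_locSet (S : Finset ℕ) (σ : ℕ → ℤ) {p : ℕ} (hp : p.Prime) (h3 : p ≠ 3)
    (g : CubicForm) :
    tri g ∈ locSet S σ p ↔ ¬ DiscBad p (redDisc g) ∧ (p ∈ S → kron p (redDisc g) = σ p) := by
  unfold locSet
  split_ifs with h
  · simp only [typeSet, Set.mem_ofPred_eq, sharpBad_tri hp h3, kron_tri hp h3, h, true_implies]
  · simp only [Set.mem_compl_iff, sharpBad_tri hp h3, h, false_implies, and_true]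

theorem tri_mem_locThree (S : Finset ℕ) (σ : ℕ → ℤ) (g : CubicForm) :
    tri g ∈ locThree S σ ↔ ¬ DiscBad 3 (redDisc g) ∧ (3 ∈ S → kron 3 (redDisc g) = σ 3) := by
  have hb : DiscBad 3 (redDisc g) ↔ (9 : ℤ) ∣ redDisc g := by simp [DiscBad]
  rw [hb]
  unfold locThree
  split_ifs with h
  · simp only [threeSet, Set.mem_ofPred_eq, h, true_implies]
    constructor
    · rintro ⟨g', hg, h1⟩; rwa [tri_injective hg]
    · exact fun h1 => ⟨g, rfl, h1⟩
  · simp only [goodThree, Set.mem_ofPred_eq, h, false_implies, and_true]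
    constructor
    · rintro ⟨g', hg, h1⟩; rwa [tri_injective hg]
    · exact fun h1 => ⟨g, rfl, h1⟩

theorem locThree_subset (S : Finset ℕ) (σ : ℕ → ℤ) : locThree S σ ⊆ goodThree := by
  unfold locThree
  split_ifs
  · rintro f ⟨g, hg, h9, -⟩; exact ⟨g, hg, h9⟩
  · exact subset_rfl

theorem invariant_fundForms : ∀ f g, Twisted f g → f ∈ fundForms → g ∈ fundForms := by
  intro f g h hf
  rw [mem_fundForms] at hf ⊢
  exact ⟨invariant_goodThree f g h hf.1, fun p hp h3 hg =>
    hf.2 p hp h3 (invariant_sharpBad p g f (twisted_symm h) hg)⟩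

theorem invariant_condGood (S : Finset ℕ) (σ : ℕ → ℤ) (T : Finset ℕ) :
    ∀ f g, Twisted f g → f ∈ condGood S σ T → g ∈ condGood S σ T := by
  intro f g h hf
  refine ⟨?_, fun p hp => ?_⟩
  · have h1 := hf.1
    unfold locThree at h1 ⊢
    split_ifs at h1 ⊢
    · exact invariant_threeSet _ f g h h1
    · exact invariant_goodThree f g h h1
  · have h1 := hf.2 p hp
    unfold locSet at h1 ⊢
    split_ifs at h1 ⊢
    · exact invariant_typeSet _ _ f g h h1
    · exact fun hg => h1 (invariant_sharpBad p g f (twisted_symm h) hg)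

theorem mem_condForms {S : Finset ℕ} {σ : ℕ → ℤ} (hS : Valid S σ) {T : Finset ℕ}
    (hT : ∀ p ∈ S, p ≠ 3 → p ∈ T) (hT' : ∀ p ∈ T, p.Prime ∧ p ≠ 3) {f : CubicForm} :
    f ∈ condForms S σ ↔ f ∈ condGood S σ T ∧ f ∈ fundForms := by
  constructor
  · rintro ⟨g, rfl, hg, hc⟩
    exact ⟨⟨(tri_mem_locThree S σ g).mpr ⟨hg.2 3 Nat.prime_three, hc 3⟩, fun p hp =>
      (tri_mem_locSet S σ (hT' p hp).1 (hT' p hp).2 g).mpr ⟨hg.2 p (hT' p hp).1, hc p⟩⟩,
      g, rfl, hg⟩
  · rintro ⟨⟨h1, h2⟩, g, rfl, hg⟩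
    refine ⟨g, rfl, hg, fun p hp => ?_⟩
    by_cases h3 : p = 3
    · subst h3
      exact ((tri_mem_locThree S σ g).mp h1).2 hp
    · exact ((tri_mem_locSet S σ (hS p hp).1 h3 g).mp (h2 p (hT p hp h3))).2 hp

/-- The share of one prime. -/
def shareAt (S : Finset ℕ) (σ : ℕ → ℤ) (p : ℕ) : ℝ := if p ∈ S then wt p (σ p) else 1

/-- The modulus. -/
def condModulus (T : Finset ℕ) : ℕ := 27 * ∏ p ∈ T, locMod p

theorem locMod_pos {p : ℕ} (hp : p.Prime) : 0 < locMod p := by
  unfold locMod
  split_ifs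
  · norm_num
  · exact pow_pos hp.pos 2

theorem locMod_dvd (p : ℕ) : locMod p ∣ p ^ 3 := by
  unfold locMod
  split_ifs with h
  · subst h; norm_num
  · exact pow_dvd_pow p (by norm_num)

theorem locSet_facts {S : Finset ℕ} {σ : ℕ → ℤ} (hS : Valid S σ) {p : ℕ} (hp : p.Prime)
    (h3 : p ≠ 3) :
    PeriodicSet (locMod p) (locSet S σ p) ∧
      density (locMod p) (locSet S σ p) = shareAt S σ p * sharpFactor p := by
  unfold locSet shareAt
  split_ifs with h
  · exact ⟨periodic_typeSet p _, density_typeSet hp h3 (hS p h).2⟩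
  · have hper := periodic_compl (periodic_sharpBad p)
    refine ⟨periodic_of_dvd (sq_dvd_locMod p) hper, ?_⟩
    obtain ⟨k, hk⟩ := sq_dvd_locMod p
    have hk0 : 0 < k := by
      rcases Nat.eq_zero_or_pos k with rfl | hk'
      · have := locMod_pos hp; simp [hk] at this
      · exact hk'
    rw [hk, density_lift (pow_pos hp.pos 2) hk0 hper, density_compl_sharpBad hp, one_mul]

theorem locThree_facts {S : Finset ℕ} {σ : ℕ → ℤ} (hS : Valid S σ) :
    PeriodicSet 27 (locThree S σ) ∧
      density 27 (locThree S σ) = 64 / 729 * shareAt S σ 3 := by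
  unfold locThree shareAt
  obtain ⟨n0, n1, n2⟩ := card_nineOf
  split_ifs with h
  · refine ⟨periodic_threeSet _, ?_⟩
    rw [density]
    rcases (hS 3 h).2 with hv | hv | hv <;> rw [hv, wt]
    · rw [card_threeSet (r := 0) (by norm_num) (by norm_num), n0, if_pos rfl]
      norm_num
    · rw [card_threeSet (r := 1) (by norm_num) (by norm_num), n1, if_neg (by norm_num)]
      norm_num
    · rw [card_threeSet (r := 2) (by norm_num) (by norm_num), n2, if_neg (by norm_num)]
      norm_num
  · refine ⟨periodic_goodThree, ?_⟩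
    rw [density, card_goodThree]
    norm_num

theorem condGood_facts {S : Finset ℕ} {σ : ℕ → ℤ} (hS : Valid S σ) (T : Finset ℕ)
    (hT : ∀ p ∈ T, p.Prime ∧ p ≠ 3) :
    0 < condModulus T ∧ PeriodicSet (condModulus T) (condGood S σ T) ∧
      density (condModulus T) (condGood S σ T) =
        64 / 729 * shareAt S σ 3 * ∏ p ∈ T, (shareAt S σ p * sharpFactor p) := by
  induction T using Finset.induction_on with
  | empty =>
    have h : condGood S σ ∅ = locThree S σ := by simp [condGood]
    rw [h]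
    simp only [condModulus, Finset.prod_empty, mul_one]
    exact ⟨by norm_num, locThree_facts hS⟩
  | insert p T hpT ih =>
    obtain ⟨h0, hper, hd⟩ := ih fun q hq => hT q (Finset.mem_insert_of_mem hq)
    obtain ⟨hp, hp3⟩ := hT p (Finset.mem_insert_self p T)
    obtain ⟨hb, hbd⟩ := locSet_facts hS hp hp3
    have hset : condGood S σ (insert p T) = locSet S σ p ∩ condGood S σ T := by
      ext f
      simp only [condGood, Set.mem_inter_iff, Set.mem_ofPred_eq, Finset.forall_mem_insert]
      tauto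
    have hmod : condModulus (insert p T) = locMod p * condModulus T := by
      rw [condModulus, condModulus, Finset.prod_insert hpT, mul_left_comm]
    have hcop : (locMod p).Coprime (condModulus T) := by
      refine Nat.Coprime.of_dvd_left (locMod_dvd p) (Nat.Coprime.mul_right ?_
        (Nat.Coprime.prod_right fun q hq => Nat.Coprime.of_dvd_right (locMod_dvd q)
          (Nat.Coprime.pow 3 3 ((Nat.coprime_primes hp (hT q (Finset.mem_insert_of_mem hq)).1).mpr
            fun h => hpT (h ▸ hq)))))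
      exact Nat.Coprime.pow 3 3 ((Nat.coprime_primes hp Nat.prime_three).mpr hp3)
    refine ⟨by rw [hmod]; exact Nat.mul_pos (locMod_pos hp) h0,
      by rw [hmod, hset]; exact periodic_inter hb hper, ?_⟩
    rw [Finset.prod_insert hpT, mul_left_comm, ← hd, ← hbd, hmod, hset, density, density, density,
      card_residues_inter (locMod_pos hp) h0 hcop hb hper]
    push_cast
    ring

theorem prod_shareAt {S : Finset ℕ} {σ : ℕ → ℤ} {T : Finset ℕ}
    (hT : ∀ p ∈ S, p ≠ 3 → p ∈ T) (h3 : 3 ∉ T) :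
    shareAt S σ 3 * ∏ p ∈ T, shareAt S σ p = shareOf S σ := by
  rw [← Finset.prod_insert h3 (f := shareAt S σ), shareOf]
  simp only [shareAt]
  rw [← Finset.prod_filter]
  refine Finset.prod_congr ?_ fun _ _ => rfl
  ext p
  simp only [Finset.mem_filter, Finset.mem_insert]
  exact ⟨And.right, fun h => ⟨(em (p = 3)).imp_right (hT p h), h⟩⟩

theorem eventually_covers (S : Finset ℕ) (hS : ∀ p ∈ S, p.Prime) :
    ∀ᶠ Y : ℕ in atTop, ∀ p ∈ S, p ≠ 3 → p ∈ sievePrimes Y := by
  filter_upwards [eventually_gt_atTop (S.sup id)] with Y hY p hp h3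
  exact mem_sievePrimes.mpr ⟨h3, lt_of_le_of_lt (Finset.le_sup (f := id) hp) hY, hS p hp⟩

/-- **The count of classes with a prescription.** -/
theorem tendsto_condForms {S : Finset ℕ} {σ : ℕ → ℤ} (hS : Valid S σ) (ε : Bool) :
    Tendsto (fun X : ℝ => ((classes ε (condForms S σ) X).ncard : ℝ) / X) atTop
      (𝓝 (shareOf S σ * (4 / π ^ 4 * mainConst ε))) := by
  rw [Metric.tendsto_atTop']
  intro η hη
  have hd := tendsto_goodSet_density.const_mul (shareOf S σ) |>.mul_const (mainConst ε)
  rw [mul_assoc] at hd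
  obtain ⟨Y, hY1, hY2, hcov⟩ :=
    ((hd.eventually (Metric.ball_mem_nhds _ (by linarith : (0 : ℝ) < η / 3))).and
      ((sieve_tail ε (by linarith : (0 : ℝ) < η / 3)).and
        (eventually_covers S fun p hp => (hS p hp).1))).exists
  set T := sievePrimes Y
  have hT : ∀ p ∈ T, p.Prime ∧ p ≠ 3 := fun p hp =>
    ⟨(mem_sievePrimes.mp hp).2.2, (mem_sievePrimes.mp hp).1⟩
  have h3 : 3 ∉ T := fun h => (mem_sievePrimes.mp h).1 rfl
  have hY1' : dist (shareOf S σ * density (sharpModulus T) (goodSet T) * mainConst ε)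
      (shareOf S σ * (4 / π ^ 4 * mainConst ε)) < η / 3 := hY1
  rw [Real.dist_eq, abs_lt] at hY1'
  obtain ⟨h0, hper, hdens⟩ := condGood_facts hS T hT
  have hval : density (condModulus T) (condGood S σ T) =
      shareOf S σ * density (sharpModulus T) (goodSet T) := by
    rw [hdens, (goodSet_facts T hT).2.2, Finset.prod_mul_distrib, ← prod_shareAt hcov h3]
    ring
  have ht := tendsto_classes ε h0 (invariant_condGood S σ T) hper
  rw [hval] at ht
  have key : ∀ᶠ X : ℝ in atTop, dist (((classes ε (condForms S σ) X).ncard : ℝ) / X)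
      (shareOf S σ * (4 / π ^ 4 * mainConst ε)) < η := by
    filter_upwards [ht.eventually (Metric.ball_mem_nhds _ (by linarith : (0 : ℝ) < η / 3)),
      hY2, eventually_gt_atTop (0 : ℝ)] with X hX hs hX0
    have hX' : dist (((classes ε (condGood S σ T) X).ncard : ℝ) / X)
        (shareOf S σ * density (sharpModulus T) (goodSet T) * mainConst ε) < η / 3 := hX
    rw [Real.dist_eq, abs_lt] at hX'
    set A := classes ε (condGood S σ T) X
    set A' := classes ε (condForms S σ) X
    set B := classes ε (goodSet T) X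
    set B' := classes ε fundForms X
    have hA : A' ⊆ A := by
      rintro c ⟨f, hf, h⟩
      exact ⟨f, ((mem_condForms hS hcov hT).mp hf).1, h⟩
    have hB : B' ⊆ B := by
      rintro c ⟨f, hf, h⟩
      exact ⟨f, fundForms_subset T hT hf, h⟩
    have hAB : A \ A' ⊆ B \ B' := by
      rintro c ⟨⟨f, hf, h⟩, hn⟩
      refine ⟨⟨f, ⟨locThree_subset S σ hf.1, fun p hp => ?_⟩, h⟩, ?_⟩
      · have := hf.2 p hp
        unfold locSet at this
        split_ifs at this
        · exact this.1
        · exact this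
      · rintro ⟨f', hf', -, -, -, hc⟩
        have htw : Twisted f' f := twisted_of_classSet (hc.symm.trans h.2.2.2)
        exact hn ⟨f, (mem_condForms hS hcov hT).mpr ⟨hf, invariant_fundForms f' f htw hf'⟩, h⟩
    have e1 := Set.ncard_sdiff_add_ncard_of_subset hA (classes_finite ε _ X)
    have e2 := Set.ncard_sdiff_add_ncard_of_subset hB (classes_finite ε _ X)
    have e3 := Set.ncard_le_ncard hAB ((classes_finite ε _ X).subset Set.sdiff_subset)
    have e : (A.ncard : ℝ) + B'.ncard ≤ A'.ncard + B.ncard := by exact_mod_cast (by omega)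
    have u : (A'.ncard : ℝ) / X ≤ (A.ncard : ℝ) / X := by
      gcongr
      exact classes_finite ε _ X
    have l : (A.ncard : ℝ) / X ≤ (A'.ncard : ℝ) / X + η / 3 := by
      rw [div_add' _ _ _ hX0.ne']
      gcongr
      linarith
    rw [Real.dist_eq, abs_lt]
    constructor <;> linarith
  obtain ⟨X₀, h⟩ := eventually_atTop.mp key
  exact ⟨X₀, fun X hX => h X hX.le⟩

end FA.ThreeTorsionLocal
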