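import Fermat.Agent.ThreeTorsion.FieldCount
import Fermat.Agent.ThreeTorsionLocal.Forms

/-!
# Fundamental discriminants with prescribed local behaviour

Their number is `3 / π²` times the product of the shares times the bound.
-/

set_option autoImplicit false

noncomputable section

open FA.ThreeTorsion Filter
open scoped Classical Topology Real

namespace FA.ThreeTorsionLocal

/-- The `k ≤ N` with `s k` fundamental everywhere and with the prescription. -/
def condUpTo (S : Finset ℕ) (σ : ℕ → ℤ) (s : ℤ) (N : ℕ) : Finset ℕ :=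
  (goodUpTo s N).filter fun k : ℕ => Cond S σ (s * (k : ℤ))

/-- The condition at `2`. -/
def condTwo (S : Finset ℕ) (σ : ℕ → ℤ) (s : ℤ) (k : ℕ) : Prop :=
  goodTwo s k ∧ (2 ∈ S → kron 2 (s * k) = σ 2)

/-- The condition at an odd prime. -/
def condOdd (S : Finset ℕ) (σ : ℕ → ℤ) (s : ℤ) (p k : ℕ) : Prop :=
  ¬ p ^ 2 ∣ k ∧ (p ∈ S → kron p (s * k) = σ p)

/-- The conditions at `2` and at the odd primes of `T`. -/
def condAt (S : Finset ℕ) (σ : ℕ → ℤ) (s : ℤ) (T : Finset ℕ) (k : ℕ) : Prop :=
  condTwo S σ s k ∧ ∀ p ∈ T, condOdd S σ s p k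

theorem kron_periodic (p : ℕ) (s : ℤ) (v : ℤ) {m : ℕ} (hm : (locMod p) ∣ m) :
    Function.Periodic (fun k : ℕ => kron p (s * k) = v) m := by
  intro k
  simp only [eq_iff_iff]
  rw [kron_congr (p := p) (D := s * ((k + m : ℕ) : ℤ)) (E := s * k)]
  push_cast
  exact ⟨s * ((m / locMod p : ℕ) : ℤ), by
    conv_lhs => rw [← Nat.mul_div_cancel' hm]
    push_cast; ring⟩

theorem condTwo_periodic (S : Finset ℕ) (σ : ℕ → ℤ) {s : ℤ} (hs : s = 1 ∨ s = -1) :
    Function.Periodic (condTwo S σ s) 16 := by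
  intro k
  have h1 := (goodTwo_base hs).1 k
  have h2 := kron_periodic 2 s (σ 2) (m := 16) (by decide) k
  simp only [eq_iff_iff] at h1 h2 ⊢
  exact and_congr h1 (forall_congr' fun _ => h2)

theorem card_two_types {s : ℤ} (hs : s = 1 ∨ s = -1) {v : ℤ} (hv : v = 0 ∨ v = 1 ∨ v = -1) :
    ((Finset.range 16).filter fun k : ℕ => goodTwo s k ∧ kron 2 (s * k) = v).card = 2 := by
  have hk : ∀ D : ℤ, kron 2 D = v ↔
      (v = 0 ∧ D % 2 = 0) ∨ (v = 1 ∧ D % 8 = 1) ∨ (v = -1 ∧ D % 2 = 1 ∧ D % 8 ≠ 1) := by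
    intro D
    rw [kron, if_pos rfl]
    split_ifs <;> omega
  rcases hs with rfl | rfl <;> rcases hv with rfl | rfl | rfl
  all_goals simp only [hk]
  · refine (congrArg Finset.card (?_ : _ = ({8, 12} : Finset ℕ))).trans rfl
    ext k
    simp only [Finset.mem_filter, Finset.mem_range, goodTwo, Finset.mem_insert,
      Finset.mem_singleton]
    norm_num
    omega
  · refine (congrArg Finset.card (?_ : _ = ({1, 9} : Finset ℕ))).trans rfl
    ext k
    simp only [Finset.mem_filter, Finset.mem_range, goodTwo, Finset.mem_insert,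
      Finset.mem_singleton]
    norm_num
    omega
  · refine (congrArg Finset.card (?_ : _ = ({5, 13} : Finset ℕ))).trans rfl
    ext k
    simp only [Finset.mem_filter, Finset.mem_range, goodTwo, Finset.mem_insert,
      Finset.mem_singleton]
    norm_num
    omega
  · refine (congrArg Finset.card (?_ : _ = ({4, 8} : Finset ℕ))).trans rfl
    ext k
    simp only [Finset.mem_filter, Finset.mem_range, goodTwo, Finset.mem_insert,
      Finset.mem_singleton]
    norm_num
    omega
  · refine (congrArg Finset.card (?_ : _ = ({7, 15} : Finset ℕ))).trans rfl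
    ext k
    simp only [Finset.mem_filter, Finset.mem_range, goodTwo, Finset.mem_insert,
      Finset.mem_singleton]
    norm_num
    omega
  · refine (congrArg Finset.card (?_ : _ = ({3, 11} : Finset ℕ))).trans rfl
    ext k
    simp only [Finset.mem_filter, Finset.mem_range, goodTwo, Finset.mem_insert,
      Finset.mem_singleton]
    norm_num
    omega

theorem card_condTwo {S : Finset ℕ} {σ : ℕ → ℤ} (hS : Valid S σ) {s : ℤ} (hs : s = 1 ∨ s = -1) :
    (((Finset.range 16).filter (condTwo S σ s)).card : ℝ) = 6 * shareAt S σ 2 := by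
  unfold shareAt
  split_ifs with h
  · have e : (Finset.range 16).filter (condTwo S σ s) =
        (Finset.range 16).filter fun k : ℕ => goodTwo s k ∧ kron 2 (s * k) = σ 2 :=
      Finset.filter_congr fun k _ => by simp [condTwo, h]
    rw [e, card_two_types hs (hS 2 h).2, wt]
    rcases (hS 2 h).2 with hv | hv | hv <;> rw [hv] <;> norm_num
  · have e : (Finset.range 16).filter (condTwo S σ s) = (Finset.range 16).filter (goodTwo s) :=
      Finset.filter_congr fun k _ => by simp [condTwo, h]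
    rw [e, (goodTwo_base hs).2]
    norm_num

theorem condOdd_periodic (S : Finset ℕ) (σ : ℕ → ℤ) (s : ℤ) {p : ℕ} (h2 : p ≠ 2) :
    Function.Periodic (condOdd S σ s p) (p ^ 2) := by
  intro k
  have h1 := periodic_sq p k
  have h3 := kron_periodic p s (σ p) (m := p ^ 2) (by rw [locMod, if_neg h2]) k
  simp only [eq_iff_iff] at h1 h3 ⊢
  exact and_congr h1 (forall_congr' fun _ => h3)

theorem kron_natCast {p : ℕ} [Fact p.Prime] (h2 : p ≠ 2) (s : ℤ) (k : ℕ) :
    kron p (s * k) = quadraticChar (ZMod p) ((s : ZMod p) * k) := by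
  rw [kron, if_neg h2, ← jacobiSym.legendreSym.to_jacobiSym, legendreSym]
  push_cast
  rfl

theorem card_unit_type {p : ℕ} (hp : p.Prime) (h2 : p ≠ 2) {s : ℤ} (hs : s = 1 ∨ s = -1) {v : ℤ}
    (hv : v = 1 ∨ v = -1) :
    2 * ((Finset.range (p ^ 2)).filter fun k : ℕ => ¬ p ^ 2 ∣ k ∧ kron p (s * k) = v).card + p =
      p ^ 2 := by
  haveI := Fact.mk hp
  set P : ℕ → Prop := fun k => kron p (s * k) = v
  have hF2 : ringChar (ZMod p) ≠ 2 := by rwa [ZMod.ringChar_zmod_n]
  have hs0 : (s : ZMod p) ≠ 0 := by rcases hs with rfl | rfl <;> simp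
  have e0 : ((Finset.range (p ^ 2)).filter fun k : ℕ => ¬ p ^ 2 ∣ k ∧ kron p (s * k) = v) =
      (Finset.range (p ^ 2)).filter P := by
    refine Finset.filter_congr fun k _ => ⟨And.right, fun h => ⟨fun hd => ?_, h⟩⟩
    have h0 : kron p (s * k) = 0 := by
      rw [kron_natCast h2, quadraticChar_eq_zero_iff]
      rw [(ZMod.natCast_eq_zero_iff k p).mpr ((dvd_pow_self p two_ne_zero).trans hd), mul_zero]
    have : kron p (s * k) = v := h
    omega
  set N := (Finset.univ.filter fun x : ZMod p => quadraticChar (ZMod p) ((s : ZMod p) * x) = v).card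
  have e1 : ((Finset.range (p ^ 2)).filter P).card = p * N := by
    have hN : ((Finset.range p).filter P).card = N := by
      refine Finset.card_bij' (fun k _ => (k : ZMod p)) (fun x _ => x.val) ?_ ?_ ?_ ?_
      · intro k hk
        refine Finset.mem_filter.mpr ⟨Finset.mem_univ _, ?_⟩
        rw [← kron_natCast h2]
        exact (Finset.mem_filter.mp hk).2
      · intro x hx
        refine Finset.mem_filter.mpr ⟨Finset.mem_range.mpr (ZMod.val_lt x), ?_⟩
        show kron p _ = v
        rw [kron_natCast h2, ZMod.natCast_rightInverse x]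
        exact (Finset.mem_filter.mp hx).2
      · intro k hk
        exact ZMod.val_cast_of_lt (Finset.mem_range.mp (Finset.mem_filter.mp hk).1)
      · intro x _
        exact ZMod.natCast_rightInverse x
    have hper : ∀ k : ℕ, P (k % p) ↔ P k := fun k => by
      show kron p _ = v ↔ kron p _ = v
      rw [kron_natCast h2, kron_natCast h2, ZMod.natCast_mod]
    rw [← hN, show p * ((Finset.range p).filter P).card =
      ((Finset.range p) ×ˢ ((Finset.range p).filter P)).card by
        rw [Finset.card_product, Finset.card_range]]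
    refine Finset.card_bij' (fun k _ => (k / p, k % p)) (fun q _ => q.2 + p * q.1) ?_ ?_ ?_ ?_
    · intro k hk
      obtain ⟨hk1, hk2⟩ := Finset.mem_filter.mp hk
      rw [Finset.mem_range, pow_two] at hk1
      exact Finset.mem_product.mpr ⟨Finset.mem_range.mpr (Nat.div_lt_of_lt_mul hk1),
        Finset.mem_filter.mpr ⟨Finset.mem_range.mpr (Nat.mod_lt _ hp.pos), (hper k).mpr hk2⟩⟩
    · intro q hq
      simp only [Finset.mem_product, Finset.mem_filter, Finset.mem_range] at hq ⊢
      obtain ⟨h1, h2', h3⟩ := hq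
      refine ⟨by nlinarith, (hper _).mp ?_⟩
      rw [Nat.add_mul_mod_self_left, Nat.mod_eq_of_lt h2']
      exact h3
    · intro k _
      exact Nat.mod_add_div k p
    · intro q hq
      simp only [Finset.mem_product, Finset.mem_filter, Finset.mem_range] at hq
      ext
      · simp only
        rw [Nat.add_mul_div_left _ _ hp.pos, Nat.div_eq_of_lt hq.2.1, zero_add]
      · simp only
        rw [Nat.add_mul_mod_self_left, Nat.mod_eq_of_lt hq.2.1]
  have hsum : 2 * (N : ℤ) + 1 = p := by
    have e : ∀ x : ZMod p,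
        2 * (if quadraticChar (ZMod p) ((s : ZMod p) * x) = v then (1 : ℤ) else 0) =
          v * quadraticChar (ZMod p) s * quadraticChar (ZMod p) x + 1 -
            (if x = 0 then (1 : ℤ) else 0) := by
      intro x
      rw [mul_assoc v, ← map_mul]
      by_cases h : x = 0
      · subst h
        rw [mul_zero, quadraticChar_zero, if_pos rfl, if_neg (by omega)]
        ring
      · rw [if_neg h]
        rcases quadraticChar_dichotomy (mul_ne_zero hs0 h) with h' | h' <;> rw [h'] <;>
          rcases hv with rfl | rfl <;> norm_num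
    have hN' : (N : ℤ) = ∑ x : ZMod p,
        (if quadraticChar (ZMod p) ((s : ZMod p) * x) = v then (1 : ℤ) else 0) := by
      simp only [N, Finset.card_filter]
      push_cast
      rfl
    rw [hN', Finset.mul_sum]
    simp only [e, Finset.sum_sub_distrib, Finset.sum_add_distrib, ← Finset.mul_sum,
      quadraticChar_sum_zero hF2]
    simp
  rw [e0, e1]
  have : ((2 * (p * N) + p : ℕ) : ℤ) = ((p ^ 2 : ℕ) : ℤ) := by
    push_cast
    linear_combination (p : ℤ) * hsum
  exact_mod_cast this

theorem card_condOdd {S : Finset ℕ} {σ : ℕ → ℤ} (hS : Valid S σ) {s : ℤ} (hs : s = 1 ∨ s = -1)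
    {p : ℕ} (hp : p.Prime) (h2 : p ≠ 2) :
    (((Finset.range (p ^ 2)).filter (condOdd S σ s p)).card : ℝ) =
      (p : ℝ) ^ 2 * (shareAt S σ p * (1 - ((p : ℝ) ^ 2)⁻¹)) := by
  have hp0 : (p : ℝ) ≠ 0 := by exact_mod_cast hp.ne_zero
  have hp1 : (p : ℝ) + 1 ≠ 0 := by positivity
  set A : ℤ → ℕ := fun v =>
    ((Finset.range (p ^ 2)).filter fun k : ℕ => ¬ p ^ 2 ∣ k ∧ kron p (s * k) = v).card
  have hall : (((Finset.range (p ^ 2)).filter fun k => ¬ p ^ 2 ∣ k).card : ℝ) =
      (p : ℝ) ^ 2 - 1 := by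
    rw [card_sq hp.pos, Nat.cast_sub (pow_pos hp.pos 2)]
    push_cast
    ring
  have h1 : 2 * (A 1 : ℝ) + p = (p : ℝ) ^ 2 := by
    exact_mod_cast card_unit_type hp h2 hs (v := 1) (Or.inl rfl)
  have hm1 : 2 * (A (-1) : ℝ) + p = (p : ℝ) ^ 2 := by
    exact_mod_cast card_unit_type hp h2 hs (v := -1) (Or.inr rfl)
  have hsplit : (A 1 : ℝ) + A (-1) + A 0 = (p : ℝ) ^ 2 - 1 := by
    rw [← hall]
    have : A 1 + A (-1) + A 0 =
        ((Finset.range (p ^ 2)).filter fun k => ¬ p ^ 2 ∣ k).card := by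
      simp only [A]
      rw [← Finset.card_union_of_disjoint, ← Finset.card_union_of_disjoint]
      · congr 1
        ext k
        simp only [Finset.mem_union, Finset.mem_filter]
        constructor
        · rintro ((h | h) | h) <;> exact ⟨h.1, h.2.1⟩
        · rintro ⟨h, h'⟩
          rcases kron_trichotomy p (s * k) with e | e | e <;> tauto
      all_goals
        rw [Finset.disjoint_left]
        intro k hk1 hk2
        simp only [Finset.mem_union, Finset.mem_filter] at hk1 hk2
        omega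
    exact_mod_cast this
  unfold shareAt
  split_ifs with h
  · have e : (Finset.range (p ^ 2)).filter (condOdd S σ s p) =
        (Finset.range (p ^ 2)).filter fun k : ℕ => ¬ p ^ 2 ∣ k ∧ kron p (s * k) = σ p :=
      Finset.filter_congr fun k _ => by simp [condOdd, h]
    rw [e]
    show (A (σ p) : ℝ) = _
    rw [wt]
    rcases (hS p h).2 with hv | hv | hv <;> rw [hv]
    · rw [if_pos rfl, show (A 0 : ℝ) = p - 1 by linarith]
      field_simp
      ring
    · rw [if_neg (by norm_num), show (A 1 : ℝ) = ((p : ℝ) ^ 2 - p) / 2 by linarith]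
      field_simp
      ring
    · rw [if_neg (by norm_num), show (A (-1) : ℝ) = ((p : ℝ) ^ 2 - p) / 2 by linarith]
      field_simp
      ring
  · have e : (Finset.range (p ^ 2)).filter (condOdd S σ s p) =
        (Finset.range (p ^ 2)).filter fun k => ¬ p ^ 2 ∣ k :=
      Finset.filter_congr fun k _ => by simp [condOdd, h]
    rw [e, hall]
    field_simp

theorem condAt_facts {S : Finset ℕ} {σ : ℕ → ℤ} (hS : Valid S σ) {s : ℤ} (hs : s = 1 ∨ s = -1)
    (T : Finset ℕ) (hT : ∀ p ∈ T, p.Prime ∧ p ≠ 2) :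
    0 < fieldModulus T ∧ Function.Periodic (condAt S σ s T) (fieldModulus T) ∧
      (((Finset.range (fieldModulus T)).filter (condAt S σ s T)).card : ℝ) =
        (fieldModulus T : ℝ) * (3 / 8 * shareAt S σ 2 *
          ∏ p ∈ T, (shareAt S σ p * (1 - ((p : ℝ) ^ 2)⁻¹))) := by
  induction T using Finset.induction_on with
  | empty =>
    have h : condAt S σ s ∅ = condTwo S σ s := by funext k; simp [condAt]
    rw [h]
    simp only [fieldModulus, Finset.prod_empty, mul_one]
    refine ⟨by norm_num, condTwo_periodic S σ hs, ?_⟩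
    rw [card_condTwo hS hs]
    push_cast
    ring
  | insert p T hpT ih =>
    obtain ⟨h0, hper, hc⟩ := ih fun q hq => hT q (Finset.mem_insert_of_mem hq)
    obtain ⟨hp, hp2⟩ := hT p (Finset.mem_insert_self p T)
    have hset : condAt S σ s (insert p T) = fun k => condOdd S σ s p k ∧ condAt S σ s T k := by
      funext k
      simp only [condAt, Finset.forall_mem_insert, eq_iff_iff]
      tauto
    have hmod : fieldModulus (insert p T) = p ^ 2 * fieldModulus T := by
      rw [fieldModulus, fieldModulus, Finset.prod_insert hpT, mul_left_comm]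
    have hpp : 0 < p ^ 2 := pow_pos hp.pos 2
    have hcop : (p ^ 2).Coprime (fieldModulus T) := by
      refine Nat.Coprime.mul_right ?_ (Nat.Coprime.prod_right fun q hq => Nat.Coprime.pow 2 2
        ((Nat.coprime_primes hp (hT q (Finset.mem_insert_of_mem hq)).1).mpr fun h => hpT (h ▸ hq)))
      exact Nat.Coprime.pow 2 4 ((Nat.coprime_primes hp Nat.prime_two).mpr hp2)
    have hodd := condOdd_periodic S σ s hp2
    refine ⟨by rw [hmod]; exact Nat.mul_pos hpp h0, ?_, ?_⟩
    · rw [hmod, hset]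
      intro k
      have a1 := hodd.nat_mul (fieldModulus T) k
      have a2 := hper.nat_mul (p ^ 2) k
      rw [mul_comm] at a1
      simp only [Nat.cast_id] at a1 a2
      simp only [eq_iff_iff] at a1 a2 ⊢
      rw [a1, a2]
    · have e : ((Finset.range (fieldModulus (insert p T))).filter
          (condAt S σ s (insert p T))).card =
          ((Finset.range (p ^ 2)).filter (condOdd S σ s p)).card *
            ((Finset.range (fieldModulus T)).filter (condAt S σ s T)).card := by
        rw [hmod, hset]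
        convert card_inter_periodic hpp h0 hcop hodd hper using 2 <;> congr!
      rw [e, hmod, Finset.prod_insert hpT]
      push_cast
      rw [hc, card_condOdd hS hs hp hp2]
      ring

theorem eventually_covers_odd (S : Finset ℕ) (hS : ∀ p ∈ S, p.Prime) :
    ∀ᶠ Y : ℕ in atTop, ∀ p ∈ S, p ≠ 2 → p ∈ oddPrimes Y := by
  filter_upwards [eventually_gt_atTop (S.sup id)] with Y hY p hp h2
  exact mem_oddPrimes.mpr ⟨h2, lt_of_le_of_lt (Finset.le_sup (f := id) hp) hY, hS p hp⟩

theorem condUpTo_sieve {S : Finset ℕ} {σ : ℕ → ℤ} {s : ℤ}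
    (hs : s = 1 ∨ s = -1) {Y : ℕ} (hY : 3 ≤ Y) (hcov : ∀ p ∈ S, p ≠ 2 → p ∈ oddPrimes Y) (N : ℕ) :
    (condUpTo S σ s N).card ≤
        ((Finset.Icc 1 N).filter (condAt S σ s (oddPrimes Y))).card ∧
      (((Finset.Icc 1 N).filter (condAt S σ s (oddPrimes Y))).card : ℝ) ≤
        (condUpTo S σ s N).card + N * ((Y : ℝ) - 1)⁻¹ := by
  set A := (Finset.Icc 1 N).filter (condAt S σ s (oddPrimes Y))
  set A' := condUpTo S σ s N
  set B := (Finset.Icc 1 N).filter (goodAt s (oddPrimes Y))
  set B' := goodUpTo s N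
  have hA : A' ⊆ A := by
    intro k hk
    obtain ⟨hk, hc⟩ := Finset.mem_filter.mp hk
    obtain ⟨hk, hg⟩ := Finset.mem_filter.mp hk
    obtain ⟨h2, h⟩ := (discGood_iff hs k).mp hg
    exact Finset.mem_filter.mpr ⟨hk, ⟨h2, hc 2⟩, fun p hp =>
      ⟨h p (mem_oddPrimes.mp hp).2.2 (mem_oddPrimes.mp hp).1, hc p⟩⟩
  have hB : B' ⊆ B := by
    intro k hk
    obtain ⟨hk, hg⟩ := Finset.mem_filter.mp hk
    obtain ⟨h2, h⟩ := (discGood_iff hs k).mp hg
    exact Finset.mem_filter.mpr
      ⟨hk, h2, fun p hp => h p (mem_oddPrimes.mp hp).2.2 (mem_oddPrimes.mp hp).1⟩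
  have hAB : A \ A' ⊆ B \ B' := by
    intro k hk
    obtain ⟨hk, hn⟩ := Finset.mem_sdiff.mp hk
    obtain ⟨hkN, h2, h⟩ := Finset.mem_filter.mp hk
    refine Finset.mem_sdiff.mpr ⟨Finset.mem_filter.mpr ⟨hkN, h2.1, fun p hp => (h p hp).1⟩,
      fun hg => hn (Finset.mem_filter.mpr ⟨hg, fun p hp => ?_⟩)⟩
    by_cases h2' : p = 2
    · subst h2'; exact h2.2 hp
    · exact (h p (hcov p hp h2')).2 hp
  refine ⟨Finset.card_le_card hA, ?_⟩
  have e1 := Finset.card_sdiff_add_card_eq_card hA
  have e2 := Finset.card_sdiff_add_card_eq_card hB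
  have e3 := Finset.card_le_card hAB
  have e : (A.card : ℝ) + B'.card ≤ A'.card + B.card := by exact_mod_cast (by omega)
  have := (goodUpTo_sieve hs hY N).2
  linarith

/-- **Fundamental discriminants with a prescription** have density `3 / π²` times the share. -/
theorem tendsto_condUpTo {S : Finset ℕ} {σ : ℕ → ℤ} (hS : Valid S σ) {s : ℤ}
    (hs : s = 1 ∨ s = -1) :
    Tendsto (fun X : ℝ => ((condUpTo S σ s ⌊X⌋₊).card : ℝ) / X) atTop
      (𝓝 (shareOf S σ * (3 / π ^ 2))) := by
  set L := shareOf S σ * (3 / π ^ 2)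
  have hN : Tendsto (fun N : ℕ => ((condUpTo S σ s N).card : ℝ) / N) atTop (𝓝 L) := by
    rw [Metric.tendsto_atTop]
    intro η hη
    have hy : Tendsto (fun Y : ℕ => ((Y : ℝ) - 1)⁻¹) atTop (𝓝 0) :=
      (tendsto_atTop_add_const_right _ _ tendsto_natCast_atTop_atTop : Tendsto
        (fun Y : ℕ => ((Y : ℝ) - 1)) atTop atTop).inv_tendsto_atTop
    have hprod := tendsto_oddProduct.const_mul (shareOf S σ)
    obtain ⟨Y, hY, hY1, hY2, hcov⟩ := ((eventually_ge_atTop 3).and
      ((hprod.eventually (Metric.ball_mem_nhds _ (by linarith : (0 : ℝ) < η / 3))).and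
      ((hy.eventually_le_const (by linarith : (0 : ℝ) < η / 3)).and
        (eventually_covers_odd S fun p hp => (hS p hp).1)))).exists
    have hY1' : dist (shareOf S σ * (3 / 8 * ∏ p ∈ oddPrimes Y, (1 - ((p : ℝ) ^ 2)⁻¹))) L <
        η / 3 := hY1
    rw [Real.dist_eq, abs_lt] at hY1'
    obtain ⟨hm, hper, hc⟩ := condAt_facts hS hs (oddPrimes Y) fun p hp =>
      ⟨(mem_oddPrimes.mp hp).2.2, (mem_oddPrimes.mp hp).1⟩
    have hshare : shareAt S σ 2 * ∏ p ∈ oddPrimes Y, shareAt S σ p = shareOf S σ := by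
      have h2 : 2 ∉ oddPrimes Y := fun h => (mem_oddPrimes.mp h).1 rfl
      rw [← Finset.prod_insert h2 (f := shareAt S σ), shareOf]
      simp only [shareAt]
      rw [← Finset.prod_filter]
      refine Finset.prod_congr ?_ fun _ _ => rfl
      ext p
      simp only [Finset.mem_filter, Finset.mem_insert]
      exact ⟨And.right, fun h => ⟨(em (p = 2)).imp_right (hcov p h), h⟩⟩
    set m := fieldModulus (oddPrimes Y)
    set δ := shareOf S σ * (3 / 8 * ∏ p ∈ oddPrimes Y, (1 - ((p : ℝ) ^ 2)⁻¹))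
    have hδ : 3 / 8 * shareAt S σ 2 *
        ∏ p ∈ oddPrimes Y, (shareAt S σ p * (1 - ((p : ℝ) ^ 2)⁻¹)) = δ := by
      simp only [δ, ← hshare, Finset.prod_mul_distrib]
      ring
    rw [hδ] at hc
    obtain ⟨N₀, hN₀⟩ := exists_nat_gt (3 * (m : ℝ) / η)
    refine ⟨max 1 N₀, fun N hN => ?_⟩
    have hN1 : (1 : ℝ) ≤ N := by exact_mod_cast (le_max_left _ _).trans hN
    have hNm : 3 * (m : ℝ) / η < N :=
      hN₀.trans_le (by exact_mod_cast (le_max_right _ _).trans hN)
    rw [div_lt_iff₀ hη] at hNm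
    obtain ⟨s1, s2⟩ := condUpTo_sieve hs hY hcov N
    have s1' : ((condUpTo S σ s N).card : ℝ) ≤
        ((Finset.Icc 1 N).filter (condAt S σ s (oddPrimes Y))).card := by exact_mod_cast s1
    have hcnt := count_periodic hm hper N
    have e : (((Finset.range m).filter (condAt S σ s (oddPrimes Y))).card : ℝ) * ((N : ℝ) / m) =
        δ * N := by
      rw [hc]
      have : (m : ℝ) ≠ 0 := by exact_mod_cast hm.ne'
      field_simp
    rw [e, abs_le] at hcnt
    have hinv : (N : ℝ) * ((Y : ℝ) - 1)⁻¹ ≤ N * (η / 3) :=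
      mul_le_mul_of_nonneg_left hY2 (by linarith)
    have hp' : (δ - L) * N < η / 3 * N ∧ -(η / 3) * N < (δ - L) * N :=
      ⟨mul_lt_mul_of_pos_right hY1'.2 (by linarith), mul_lt_mul_of_pos_right hY1'.1 (by linarith)⟩
    rw [Real.dist_eq, abs_lt, lt_sub_iff_add_lt, sub_lt_iff_lt_add, lt_div_iff₀ (by linarith),
      div_lt_iff₀ (by linarith)]
    constructor <;> nlinarith [hp'.1, hp'.2]
  have h := (hN.comp (tendsto_nat_floor_atTop (α := ℝ))).mul (tendsto_nat_floor_div_atTop (R := ℝ))
  rw [mul_one] at h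
  refine h.congr' ?_
  filter_upwards [eventually_ge_atTop (1 : ℝ)] with X hX
  have : (⌊X⌋₊ : ℝ) ≠ 0 := by exact_mod_cast (Nat.floor_pos.mpr hX).ne'
  simp only [Function.comp_apply]
  field_simp

end FA.ThreeTorsionLocal
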