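import Fermat.Agent.ThreeTorsion.Main
import Fermat.Agent.ThreeTorsionLocal.Discs

/-!
# The average three-torsion with prescribed local behaviour

The mean of `#Cl[3]` over the fundamental discriminants with a prescription at finitely many primes
is `4 / 3` for positive and `2` for negative ones.
-/

set_option autoImplicit false

noncomputable section

open FA.Thue FA.DeloneFaddeev FA.CubicFormCount FA.ThreeTorsion Module NumberField Filter
open scoped Classical Topology Real

namespace FA.ThreeTorsionLocal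

/-- `#Cl[3]` of the quadratic field of discriminant `D`, and `0` if there is none. -/
def cl3Of (D : ℤ) : ℕ :=
  if h : ∃ m : ℕ, ∃ (L : Type) (_ : Field L) (_ : NumberField L),
      finrank ℚ L = 2 ∧ discr L = D ∧ cl3Card L = m then h.choose else 0

theorem cl3Card_congr {K L : Type} [Field K] [NumberField K] [Field L] [NumberField L]
    (ψ : K ≃+* L) : cl3Card K = cl3Card L := by
  let E := ClassGroup.mulEquiv (RingOfIntegers.mapRingEquiv ψ)
  exact Nat.card_congr (E.toEquiv.subtypeEquiv fun c => by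
    show c ^ 3 = 1 ↔ E c ^ 3 = 1
    rw [← map_pow, map_eq_one_iff _ E.injective])

theorem cl3Of_eq {L : Type} [Field L] [NumberField L] (hL : finrank ℚ L = 2) :
    cl3Of (discr L) = cl3Card L := by
  have h : ∃ m : ℕ, ∃ (M : Type) (_ : Field M) (_ : NumberField M),
      finrank ℚ M = 2 ∧ discr M = discr L ∧ cl3Card M = m :=
    ⟨_, L, inferInstance, inferInstance, hL, rfl, rfl⟩
  rw [cl3Of, dif_pos h]
  obtain ⟨M, hM1, hM2, hd, hdisc, he⟩ := h.choose_spec
  obtain ⟨ψ⟩ := nonempty_ringEquiv hd hL hdisc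
  rw [← he]
  exact cl3Card_congr ψ

theorem exists_field_of_idx {s : ℤ} (hs : s = 1 ∨ s = -1) {X : ℝ} {k : ℕ}
    (hk : k ∈ fieldIdx s X) : ∃ (L : Type) (_ : Field L) (_ : NumberField L),
      finrank ℚ L = 2 ∧ discr L = s * k ∧ cl3Of (s * k) = cl3Card L := by
  obtain ⟨L, hF, hN, hd, hdisc⟩ := exists_sqrt_field (mem_fieldIdx hs hk).1
  exact ⟨L, hF, hN, hd, hdisc, by rw [← hdisc]; exact cl3Of_eq hd⟩

theorem not_dvd_of_cl3Of {L : Type} [Field L] [NumberField L] (hL : finrank ℚ L = 2)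
    (h : cl3Of (discr L) < 3) : ¬ 3 ∣ classNumber L := by
  intro hd
  have h1 := one_le_cl3 L
  rw [if_pos (Nat.mod_eq_zero_of_dvd hd), ← cl3Of_eq hL] at h1
  omega

/-- The indices of the fields with a prescription. -/
def condIdx (S : Finset ℕ) (σ : ℕ → ℤ) (s : ℤ) (X : ℝ) : Finset ℕ :=
  (fieldIdx s X).filter fun k : ℕ => Cond S σ (s * (k : ℤ))

theorem condIdx_eq (S : Finset ℕ) (σ : ℕ → ℤ) (s : ℤ) (X : ℝ) :
    condIdx S σ s X = (condUpTo S σ s ⌊X⌋₊).filter fun k : ℕ => s * (k : ℤ) ≠ 1 := by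
  ext k
  simp only [condIdx, condUpTo, fieldIdx, Finset.mem_filter]
  tauto

theorem rest_subset_one {s : ℤ} (hs : s = 1 ∨ s = -1) (G : Finset ℕ) :
    G.filter (fun k : ℕ => ¬ s * (k : ℤ) ≠ 1) ⊆ {1} := fun k hk => by
  have h := (Finset.mem_filter.mp hk).2
  rw [not_not] at h
  rcases hs with rfl | rfl <;> simp at h ⊢ <;> omega

theorem ncard_condForms {S : Finset ℕ} {σ : ℕ → ℤ} {s : ℤ} (hs : s = 1 ∨ s = -1) (X : ℝ) :
    (classes (formSign s) (condForms S σ) (27 * X)).ncard =
      ∑ k ∈ condUpTo S σ s ⌊X⌋₊, (triClasses (s * k)).ncard := by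
  have e : classes (formSign s) (condForms S σ) (27 * X) =
      ⋃ k ∈ condUpTo S σ s ⌊X⌋₊, triClasses (s * k) := by
    ext c
    simp only [Set.mem_iUnion, exists_prop]
    constructor
    · rintro ⟨f, ⟨g, rfl, hg, hc⟩, h⟩
      have hm : c ∈ classes (formSign s) fundForms (27 * X) := ⟨_, ⟨g, rfl, hg⟩, h⟩
      rw [classes_fundForms hs] at hm
      simp only [Set.mem_iUnion, exists_prop] at hm
      obtain ⟨k, hk, hck⟩ := hm
      refine ⟨k, Finset.mem_filter.mpr ⟨hk, ?_⟩, hck⟩
      have hg' : c ∈ triClasses (redDisc g) := ⟨g, rfl, h.1, h.2.2.2⟩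
      have heq : redDisc g = s * k := by
        by_contra hne
        exact Set.disjoint_left.mp (triClasses_disjoint hne) hg' hck
      rw [← heq]
      exact hc
    · rintro ⟨k, hk, hck⟩
      obtain ⟨hk, hc⟩ := Finset.mem_filter.mp hk
      have hm : c ∈ classes (formSign s) fundForms (27 * X) := by
        rw [classes_fundForms hs]
        exact Set.mem_biUnion hk hck
      obtain ⟨f, ⟨g, rfl, hg⟩, h⟩ := hm
      have hg' : c ∈ triClasses (redDisc g) := ⟨g, rfl, h.1, h.2.2.2⟩
      have heq : redDisc g = s * k := by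
        by_contra hne
        exact Set.disjoint_left.mp (triClasses_disjoint hne) hg' hck
      exact ⟨_, ⟨g, rfl, hg, by rw [heq]; exact hc⟩, h⟩
  rw [e]
  refine (Set.Finite.ncard_biUnion (condUpTo S σ s ⌊X⌋₊).finite_toSet
    (fun k _ => triClasses_finite _) (fun k _ l _ hkl => triClasses_disjoint ?_)).trans
    (finsum_mem_coe_finset _ _)
  intro h
  rcases hs with rfl | rfl <;> exact hkl (by omega)

theorem sum_bound_cond (S : Finset ℕ) (σ : ℕ → ℤ) {s : ℤ} (hs : s = 1 ∨ s = -1) :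
    ∃ C : ℝ, ∀ X : ℝ, |(if s = 1 then (3 : ℝ) else 1) * ∑ k ∈ condIdx S σ s X, (cl3Of (s * k) : ℝ) -
      (2 * (classes (formSign s) (condForms S σ) (27 * X)).ncard +
        (condIdx S σ s X).card)| ≤ C := by
  set u : ℕ := if s = 1 then 3 else 1
  set C₁ : ℝ := u * cl3Of (-3) + 2 * (triClasses (-3)).ncard + 1
  refine ⟨C₁ + 2 * (triClasses 1).ncard, fun X => ?_⟩
  set G := condUpTo S σ s ⌊X⌋₊
  rw [ncard_condForms hs, ← Finset.sum_filter_add_sum_filter_not G (fun k : ℕ => s * (k : ℤ) ≠ 1),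
    ← condIdx_eq]
  have hrest : ∑ k ∈ G.filter (fun k : ℕ => ¬ s * (k : ℤ) ≠ 1), (triClasses (s * k)).ncard ≤
      (triClasses 1).ncard := by
    calc ∑ k ∈ G.filter (fun k : ℕ => ¬ s * (k : ℤ) ≠ 1), (triClasses (s * k)).ncard
        = ∑ k ∈ G.filter (fun k : ℕ => ¬ s * (k : ℤ) ≠ 1), (triClasses 1).ncard :=
          Finset.sum_congr rfl fun k hk => by rw [not_not.mp (Finset.mem_filter.mp hk).2]
      _ ≤ 1 * (triClasses 1).ncard := by
          rw [Finset.sum_const, smul_eq_mul]
          exact Nat.mul_le_mul_right _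
            ((Finset.card_le_card (rest_subset_one hs G)).trans (by simp))
      _ = _ := one_mul _
  have hterm : ∀ k ∈ condIdx S σ s X,
      |(u : ℝ) * cl3Of (s * k) - (2 * ((triClasses (s * k)).ncard : ℝ) + 1)| ≤
        if s * (k : ℤ) = -3 then C₁ else 0 := by
    intro k hk
    have hk' := (Finset.mem_filter.mp hk).1
    split_ifs with h
    · rw [h, abs_le]
      have h1 : (0 : ℝ) ≤ (u : ℝ) * cl3Of (-3) := by positivity
      have h2 : (0 : ℝ) ≤ ((triClasses (-3)).ncard : ℝ) := by positivity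
      constructor <;> simp only [C₁] <;> linarith
    · obtain ⟨L, _, _, hd, hdisc, he⟩ := exists_field_of_idx hs hk'
      have hc := count_field hs hd hdisc (mem_fieldIdx hs hk').2.1 h
      have : (u : ℝ) * cl3Card L = 2 * ((triClasses (s * k)).ncard : ℝ) + 1 := by
        exact_mod_cast hc
      rw [he, this, sub_self, abs_zero]
  have hC0 : (0 : ℝ) ≤ C₁ := by positivity
  have hone : ∑ k ∈ condIdx S σ s X, (if s * (k : ℤ) = -3 then C₁ else 0) ≤ C₁ := by
    rw [← Finset.sum_filter, Finset.sum_const, nsmul_eq_mul]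
    refine mul_le_of_le_one_left hC0 ?_
    exact_mod_cast Finset.card_le_one.mpr fun a ha b hb => by
      have h1 := (Finset.mem_filter.mp ha).2
      have h2 := (Finset.mem_filter.mp hb).2
      rcases hs with rfl | rfl <;> omega
  have habs := (Finset.abs_sum_le_sum_abs _ _).trans ((Finset.sum_le_sum hterm).trans hone)
  rw [Finset.sum_sub_distrib, ← Finset.mul_sum, Finset.sum_add_distrib, ← Finset.mul_sum,
    Finset.sum_const, nsmul_one] at habs
  have hu : (u : ℝ) = if s = 1 then 3 else 1 := by simp only [u]; split_ifs <;> simp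
  rw [← hu]
  have hrest' : ((∑ k ∈ G.filter (fun k : ℕ => ¬ s * (k : ℤ) ≠ 1),
      (triClasses (s * k)).ncard : ℕ) : ℝ) ≤ (triClasses 1).ncard := by exact_mod_cast hrest
  have hr0 : (0 : ℝ) ≤ ((∑ k ∈ G.filter (fun k : ℕ => ¬ s * (k : ℤ) ≠ 1),
      (triClasses (s * k)).ncard : ℕ) : ℝ) := Nat.cast_nonneg _
  push_cast at hrest' hr0 habs ⊢
  rw [abs_le] at habs ⊢
  constructor <;> linarith

theorem tendsto_condIdx {S : Finset ℕ} {σ : ℕ → ℤ} (hS : Valid S σ) {s : ℤ}
    (hs : s = 1 ∨ s = -1) :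
    Tendsto (fun X : ℝ => ((condIdx S σ s X).card : ℝ) / X) atTop
      (𝓝 (shareOf S σ * (3 / π ^ 2))) := by
  have h1 := tendsto_condUpTo hS hs
  have h2 : Tendsto (fun X : ℝ => (1 : ℝ) / X) atTop (𝓝 0) :=
    tendsto_const_nhds.div_atTop tendsto_id
  have h12 := h1.sub h2
  rw [sub_zero] at h12
  refine tendsto_of_tendsto_of_tendsto_of_le_of_le' h12 h1 ?_ ?_ <;>
    filter_upwards [eventually_gt_atTop (0 : ℝ)] with X hX <;> rw [condIdx_eq]
  · rw [← sub_div]
    gcongr
    have h := Finset.card_filter_add_card_filter_not (s := condUpTo S σ s ⌊X⌋₊)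
      (fun k : ℕ => s * (k : ℤ) ≠ 1)
    have h' := Finset.card_le_card (rest_subset_one hs (condUpTo S σ s ⌊X⌋₊))
    rw [Finset.card_singleton] at h'
    have : (condUpTo S σ s ⌊X⌋₊).card ≤
        ((condUpTo S σ s ⌊X⌋₊).filter fun k : ℕ => s * (k : ℤ) ≠ 1).card + 1 := by omega
    have := (Nat.cast_le (α := ℝ)).mpr this
    push_cast at this
    linarith
  · gcongr
    exact Finset.filter_subset _ _

/-- The limit mean. -/
def meanOf (s : ℤ) : ℝ := if s = 1 then 4 / 3 else 2

theorem tendsto_cl3_sum {S : Finset ℕ} {σ : ℕ → ℤ} (hS : Valid S σ) {s : ℤ}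
    (hs : s = 1 ∨ s = -1) :
    Tendsto (fun X : ℝ => (∑ k ∈ condIdx S σ s X, (cl3Of (s * k) : ℝ)) / X) atTop
      (𝓝 (meanOf s * (shareOf S σ * (3 / π ^ 2)))) := by
  obtain ⟨C, hC⟩ := sum_bound_cond S σ hs
  set u : ℝ := if s = 1 then 3 else 1
  have hu : 0 < u := by simp only [u]; split_ifs <;> norm_num
  have h1 := (tendsto_condForms hS (formSign s)).comp
    (tendsto_id.const_mul_atTop (by norm_num : (0 : ℝ) < 27) : Tendsto (fun X : ℝ => 27 * X) _ _)
  have hmain : Tendsto (fun X : ℝ =>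
      (2 * ((classes (formSign s) (condForms S σ) (27 * X)).ncard : ℝ) +
        (condIdx S σ s X).card) / X) atTop
      (𝓝 (54 * (shareOf S σ * (4 / π ^ 4 * mainConst (formSign s))) +
        shareOf S σ * (3 / π ^ 2))) := by
    refine ((h1.const_mul 54).add (tendsto_condIdx hS hs)).congr' ?_
    filter_upwards [eventually_gt_atTop (0 : ℝ)] with X hX
    simp only [Function.comp_apply]
    field_simp
    ring
  have herr : Tendsto (fun X : ℝ => (u * ∑ k ∈ condIdx S σ s X, (cl3Of (s * k) : ℝ) -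
      (2 * ((classes (formSign s) (condForms S σ) (27 * X)).ncard : ℝ) +
        (condIdx S σ s X).card)) / X) atTop (𝓝 0) := by
    refine squeeze_zero_norm' ?_ ((tendsto_const_nhds (x := C)).div_atTop tendsto_id)
    filter_upwards [eventually_gt_atTop (0 : ℝ)] with X hX
    rw [Real.norm_eq_abs, abs_div, abs_of_pos hX]
    exact div_le_div_of_nonneg_right (hC X) hX.le
  have h := (hmain.add herr).div_const u
  rw [add_zero] at h
  have hval : (54 * (shareOf S σ * (4 / π ^ 4 * mainConst (formSign s))) +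
      shareOf S σ * (3 / π ^ 2)) / u = meanOf s * (shareOf S σ * (3 / π ^ 2)) := by
    rcases hs with rfl | rfl
    · rw [show formSign 1 = false by decide, mainConst_false]
      simp only [u, meanOf, if_true]
      field_simp
      ring
    · rw [show formSign (-1) = true by decide, mainConst_true]
      simp only [u, meanOf]
      norm_num
      field_simp
      ring
  rw [hval] at h
  refine h.congr fun X => ?_
  field_simp
  ring

/-- The indices with class number prime to `3`. -/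
def primeIdx (S : Finset ℕ) (σ : ℕ → ℤ) (s : ℤ) (X : ℝ) : Finset ℕ :=
  (condIdx S σ s X).filter fun k : ℕ => cl3Of (s * (k : ℤ)) < 3

/-- The proportion with class number prime to `3`, measured by `X`. -/
theorem eventually_primeIdx {S : Finset ℕ} {σ : ℕ → ℤ} (hS : Valid S σ) {s : ℤ}
    (hs : s = 1 ∨ s = -1) {η : ℝ} (hη : 0 < η) :
    ∀ᶠ X : ℝ in atTop, (3 - meanOf s) / 2 * (shareOf S σ * (3 / π ^ 2)) * X - η * X ≤
      ((primeIdx S σ s X).card : ℝ) := by
  set L := shareOf S σ * (3 / π ^ 2)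
  filter_upwards [eventually_gt_atTop (0 : ℝ),
    (tendsto_condIdx hS hs).eventually_const_le (show L - η / 3 < L by linarith),
    (tendsto_cl3_sum hS hs).eventually_le_const
      (show meanOf s * L < meanOf s * L + η by linarith)] with X hX h1 h2
  rw [le_div_iff₀ hX] at h1
  rw [div_le_iff₀ hX] at h2
  have hle : ∀ k ∈ condIdx S σ s X,
      (3 : ℝ) - 2 * (if cl3Of (s * (k : ℤ)) < 3 then 1 else 0) ≤ cl3Of (s * k) := by
    intro k hk
    obtain ⟨L', _, _, -, -, he⟩ := exists_field_of_idx hs (Finset.mem_filter.mp hk).1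
    split_ifs with h
    · have h' : (1 : ℝ) ≤ cl3Of (s * k) := by
        have := one_le_cl3 L'
        exact_mod_cast (by omega : 1 ≤ cl3Of (s * k))
      linarith
    · have : (3 : ℝ) ≤ cl3Of (s * k) := by exact_mod_cast not_lt.mp h
      linarith
  have hsum := Finset.sum_le_sum hle
  rw [Finset.sum_sub_distrib, ← Finset.mul_sum, Finset.sum_boole, Finset.sum_const,
    nsmul_eq_mul] at hsum
  show _ ≤ (((condIdx S σ s X).filter fun k : ℕ => cl3Of (s * (k : ℤ)) < 3).card : ℝ)
  nlinarith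

/-- A family of fields indexed by a set of indices. -/
def IsFamily (s : ℤ) (I : Finset ℕ) (F : Fin I.card → Type) (hF : ∀ i, Field (F i))
    (hN : ∀ i, letI := hF i; NumberField (F i)) (φ : Fin I.card ≃ {k // k ∈ I}) : Prop :=
  letI := hF
  letI := hN
  ∀ i, finrank ℚ (F i) = 2 ∧ discr (F i) = s * ((φ i : ℕ) : ℤ)

theorem exists_family {s : ℤ} (hs : s = 1 ∨ s = -1) {X : ℝ} {I : Finset ℕ}
    (hI : I ⊆ fieldIdx s X) :
    ∃ (F : Fin I.card → Type) (hF : ∀ i, Field (F i))
      (hN : ∀ i, letI := hF i; NumberField (F i)) (φ : Fin I.card ≃ {k // k ∈ I}),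
      IsFamily s I F hF hN φ := by
  choose F hF hN hd hdisc using fun i : Fin I.card =>
    exists_sqrt_field (mem_fieldIdx hs (hI (I.equivFin.symm i).2)).1
  exact ⟨F, hF, hN, I.equivFin.symm, fun i => ⟨hd i, hdisc i⟩⟩

theorem family_sum {s : ℤ} {I : Finset ℕ} {F : Fin I.card → Type} {hF : ∀ i, Field (F i)}
    {hN : ∀ i, letI := hF i; NumberField (F i)} {φ : Fin I.card ≃ {k // k ∈ I}}
    (h : IsFamily s I F hF hN φ) :
    ∑ i, (letI := hF i; letI := hN i; (cl3Card (F i) : ℝ)) = ∑ k ∈ I, (cl3Of (s * k) : ℝ) := by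
  letI := hF
  letI := hN
  rw [← Finset.sum_coe_sort I fun k : ℕ => (cl3Of (s * (k : ℤ)) : ℝ)]
  exact Fintype.sum_equiv φ _ _ fun i => by rw [← (h i).2, cl3Of_eq (h i).1]

theorem family_count {I J : Finset ℕ} (φ : Fin I.card ≃ {k // k ∈ I}) (hJ : J ⊆ I)
    {Q : Fin I.card → Prop} (hQ : ∀ i, (φ i : ℕ) ∈ J → Q i) :
    J.card ≤ (Finset.univ.filter Q).card := by
  have e : (Finset.univ.filter fun i => (φ i : ℕ) ∈ J).card = J.card := by
    refine Finset.card_bij (fun i _ => (φ i : ℕ)) (fun i hi => (Finset.mem_filter.mp hi).2)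
      (fun i _ j _ h => φ.injective (Subtype.ext h)) fun k hk => ?_
    exact ⟨φ.symm ⟨k, hJ hk⟩, by simp [hk], by simp⟩
  rw [← e]
  exact Finset.card_le_card fun i hi =>
    Finset.mem_filter.mpr ⟨Finset.mem_univ _, hQ i (Finset.mem_filter.mp hi).2⟩

/-- The mean over the indices with a prescription. -/
theorem tendsto_mean {S : Finset ℕ} {σ : ℕ → ℤ} (hS : Valid S σ) {s : ℤ} (hs : s = 1 ∨ s = -1) :
    Tendsto (fun X : ℝ => (∑ k ∈ condIdx S σ s X, (cl3Of (s * k) : ℝ)) /
      (condIdx S σ s X).card) atTop (𝓝 (meanOf s)) := by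
  have hne : shareOf S σ * (3 / π ^ 2) ≠ 0 :=
    mul_ne_zero (shareOf_pos hS).ne' (by positivity)
  have h := (tendsto_cl3_sum hS hs).div (tendsto_condIdx hS hs) hne
  rw [mul_div_assoc, div_self hne, mul_one] at h
  refine h.congr' ?_
  filter_upwards [eventually_gt_atTop (0 : ℝ)] with X hX
  exact div_div_div_cancel_right₀ hX.ne' _ _

/-- The proportion with class number prime to `3`. -/
theorem eventually_proportion {S : Finset ℕ} {σ : ℕ → ℤ} (hS : Valid S σ) {s : ℤ}
    (hs : s = 1 ∨ s = -1) {η : ℝ} (hη : 0 < η) :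
    ∀ᶠ X : ℝ in atTop, ((3 - meanOf s) / 2 - η) * (condIdx S σ s X).card ≤
      ((primeIdx S σ s X).card : ℝ) := by
  set L := shareOf S σ * (3 / π ^ 2)
  have hL : 0 < L := mul_pos (shareOf_pos hS) (by positivity)
  have hc : (3 - meanOf s) / 2 ≤ 1 ∧ 0 ≤ (3 - meanOf s) / 2 := by
    unfold meanOf; split_ifs <;> norm_num
  filter_upwards [eventually_gt_atTop (0 : ℝ),
    eventually_primeIdx hS hs (show 0 < η * L / 4 by positivity),
    (tendsto_condIdx hS hs).eventually_le_const (show L < L + η * L / 4 by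
      linarith [mul_pos hη hL]),
    (tendsto_condIdx hS hs).eventually_const_le (show L / 2 < L by linarith)] with X hX h1 h2 h3
  rw [div_le_iff₀ hX] at h2
  rw [le_div_iff₀ hX] at h3
  have h4 := mul_le_mul_of_nonneg_left h2 hc.2
  have h5 := mul_le_mul_of_nonneg_right hc.1 (by positivity : 0 ≤ η * L / 4 * X)
  have h6 := mul_le_mul_of_nonneg_left h3 hη.le
  rw [sub_mul]
  nlinarith

end FA.ThreeTorsionLocal
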