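import Fermat.Agent.ThreeTorsionLocal.Main
import Fermat.Agent.ThreeTorsionLocal.Criterion

/-!
# Systems of quadratic fields with prescribed local behaviour

Complete irredundant systems, their size, the mean of `#Cl[3]`, and the fields whose `ℤ₃`-towers
have all class numbers prime to `3`.
-/

set_option autoImplicit false

noncomputable section

open FA.ThreeTorsion Module NumberField Filter
open scoped Classical Topology Real

namespace FA.ThreeTorsionLocal

/-- A complete irredundant system of the fields with `0 < s d ≤ X` satisfying `C`. -/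
def IsSystemOf (s : ℤ) (X : ℝ) (C : ℤ → Prop) {n : ℕ} (F : Fin n → Type)
    (hF : ∀ i, Field (F i)) (hN : ∀ i, letI := hF i; NumberField (F i)) : Prop :=
  letI := hF
  letI := hN
  (∀ i, finrank ℚ (F i) = 2 ∧ 0 < s * discr (F i) ∧ ((s * discr (F i) : ℤ) : ℝ) ≤ X ∧
      C (discr (F i))) ∧
    (∀ i j, Nonempty (F i ≃+* F j) → i = j) ∧
    ∀ (L : Type) [Field L] [NumberField L], finrank ℚ L = 2 → 0 < s * discr L →
      ((s * discr L : ℤ) : ℝ) ≤ X → C (discr L) → ∃ i, Nonempty (F i ≃+* L)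

theorem family_isSystemOf {s : ℤ} (hs : s = 1 ∨ s = -1) {X : ℝ} (C : ℤ → Prop)
    {I : Finset ℕ} (hI : ∀ k, k ∈ I ↔ k ∈ fieldIdx s X ∧ C (s * (k : ℤ)))
    {F : Fin I.card → Type} {hF : ∀ i, Field (F i)}
    {hN : ∀ i, letI := hF i; NumberField (F i)} {φ : Fin I.card ≃ {k // k ∈ I}}
    (h : IsFamily s I F hF hN φ) : IsSystemOf s X C F hF hN := by
  letI := hF
  letI := hN
  refine ⟨fun i => ?_, fun i j ⟨e⟩ => ?_, fun L _ _ hL h0 h1 hc => ?_⟩
  · obtain ⟨hk, hC⟩ := (hI _).mp (φ i).2
    obtain ⟨-, h1, h2⟩ := mem_fieldIdx hs hk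
    rw [(h i).2, ← mul_assoc]
    rcases hs with rfl | rfl <;> norm_num at hC ⊢ <;> exact ⟨(h i).1, by omega, h2, hC⟩
  · refine φ.injective (Subtype.ext ?_)
    have e' := discr_eq_discr_of_ringEquiv (F i) e
    rw [(h i).2, (h j).2] at e'
    rcases hs with rfl | rfl <;> omega
  · obtain ⟨hm, he⟩ := fund_mem_fieldIdx hs (fundDisc_discr hL) h0 h1
    have hmI : (s * discr L).toNat ∈ I := (hI _).mpr ⟨hm, by rw [he]; exact hc⟩
    refine ⟨φ.symm ⟨_, hmI⟩, nonempty_ringEquiv (h _).1 hL ?_⟩
    rw [(h _).2, φ.apply_symm_apply]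
    exact he

/-- The systems, their size, the mean and the proportion. -/
theorem exists_cond_systems {S : Finset ℕ} {σ : ℕ → ℤ} (hS : Valid S σ) {s : ℤ}
    (hs : s = 1 ∨ s = -1) :
    ∃ (n : ℝ → ℕ) (F : ∀ X, Fin (n X) → Type) (hF : ∀ X i, Field (F X i))
      (hN : ∀ X i, letI := hF X i; NumberField (F X i)),
      (∀ X, IsSystemOf s X (Cond S σ) (F X) (hF X) (hN X)) ∧
      Tendsto (fun X : ℝ => (n X : ℝ) / X) atTop (𝓝 (shareOf S σ * (3 / π ^ 2))) ∧
      Tendsto (fun X : ℝ => (∑ i, letI := hF X i; letI := hN X i; (cl3Card (F X i) : ℝ)) / n X)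
        atTop (𝓝 (meanOf s)) ∧
      ∀ η : ℝ, 0 < η → ∀ᶠ X : ℝ in atTop, ((3 - meanOf s) / 2 - η) * n X ≤
        ((Finset.univ.filter fun i => letI := hF X i; letI := hN X i;
          ¬ 3 ∣ classNumber (F X i)).card : ℝ) := by
  choose F hF hN φ hφ using fun X : ℝ =>
    exists_family hs (X := X) (I := condIdx S σ s X) (Finset.filter_subset _ _)
  refine ⟨fun X => (condIdx S σ s X).card, F, hF, hN,
    fun X => family_isSystemOf hs (Cond S σ) (fun k => Finset.mem_filter) (hφ X),
    tendsto_condIdx hS hs, ?_, fun η hη => ?_⟩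
  · refine (tendsto_mean hS hs).congr fun X => ?_
    rw [family_sum (hφ X)]
  · filter_upwards [eventually_proportion hS hs hη] with X hX
    refine hX.trans (Nat.cast_le.mpr ?_)
    have h := family_count (φ X) (J := primeIdx S σ s X) (Finset.filter_subset _ _)
      (Q := fun i => letI := hF X i; letI := hN X i; ¬ 3 ∣ classNumber (F X i)) fun i hi => by
        letI := hF X i
        letI := hN X i
        refine not_dvd_of_cl3Of (hφ X i).1 ?_
        rw [(hφ X i).2]
        exact (Finset.mem_filter.mp hi).2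
    convert h using 3

/-- The proportion whose `ℤ₃`-towers have class numbers prime to `3`. -/
theorem exists_tower_systems {s : ℤ} (hs : s = 1 ∨ s = -1) :
    ∃ (n : ℝ → ℕ) (F : ∀ X, Fin (n X) → Type) (hF : ∀ X i, Field (F X i))
      (hN : ∀ X i, letI := hF X i; NumberField (F X i)),
      (∀ X, IsSystemOf s X (fun _ => True) (F X) (hF X) (hN X)) ∧
      Tendsto (fun X : ℝ => (n X : ℝ) / X) atTop (𝓝 (3 / π ^ 2)) ∧
      ∀ η : ℝ, 0 < η → ∀ᶠ X : ℝ in atTop, (5 / 8 * ((3 - meanOf s) / 2) - η) * n X ≤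
        ((Finset.univ.filter fun i => letI := hF X i; letI := hN X i;
          TowersPrimeToThree (F X i)).card : ℝ) := by
  choose F hF hN φ hφ using fun X : ℝ =>
    exists_family hs (X := X) (I := fieldIdx s X) subset_rfl
  refine ⟨fun X => (fieldIdx s X).card, F, hF, hN,
    fun X => family_isSystemOf hs (fun _ => True) (fun k => (iff_of_eq (and_true _)).symm) (hφ X),
    tendsto_fieldIdx hs, fun η hη => ?_⟩
  have hv : ∀ v : ℤ, v = 0 ∨ v = -1 → Valid {3} (fun _ => v) := fun v hv p hp => by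
    rw [Finset.mem_singleton] at hp
    exact ⟨hp ▸ Nat.prime_three, by rcases hv with rfl | rfl <;> simp⟩
  set c := (3 - meanOf s) / 2
  set κ := 3 / π ^ 2
  have hκ : 0 < κ := by positivity
  have hc : c ≤ 1 ∧ 0 ≤ c := by
    simp only [c, meanOf]; split_ifs <;> norm_num
  filter_upwards [eventually_gt_atTop (0 : ℝ),
    eventually_primeIdx (hv 0 (Or.inl rfl)) hs (show 0 < η * κ / 8 by positivity),
    eventually_primeIdx (hv (-1) (Or.inr rfl)) hs (show 0 < η * κ / 8 by positivity),
    (tendsto_fieldIdx hs).eventually_le_const (show κ < κ + η * κ / 8 by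
      linarith [mul_pos hη hκ]),
    (tendsto_fieldIdx hs).eventually_const_le (show κ / 2 < κ by linarith)] with X hX h0 h1 h2 h3
  rw [div_le_iff₀ hX] at h2
  rw [le_div_iff₀ hX] at h3
  have hw0 : shareOf {3} (fun _ => (0 : ℤ)) = 1 / 4 := by
    rw [shareOf, Finset.prod_singleton, wt, if_pos rfl]; norm_num
  have hw1 : shareOf {3} (fun _ => (-1 : ℤ)) = 3 / 8 := by
    rw [shareOf, Finset.prod_singleton, wt, if_neg (by norm_num)]; norm_num
  rw [hw0] at h0
  rw [hw1] at h1
  set J := primeIdx {3} (fun _ => 0) s X ∪ primeIdx {3} (fun _ => -1) s X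
  have hdisj : Disjoint (primeIdx {3} (fun _ => 0) s X) (primeIdx {3} (fun _ => -1) s X) := by
    rw [Finset.disjoint_left]
    intro k hk hk'
    have e := (Finset.mem_filter.mp (Finset.mem_filter.mp hk).1).2 3 (Finset.mem_singleton_self 3)
    have e' := (Finset.mem_filter.mp (Finset.mem_filter.mp hk').1).2 3 (Finset.mem_singleton_self 3)
    rw [e] at e'
    norm_num at e'
  have hJ : (J.card : ℝ) ≤ ((Finset.univ.filter fun i => letI := hF X i; letI := hN X i;
      TowersPrimeToThree (F X i)).card : ℝ) := by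
    refine Nat.cast_le.mpr (family_count (φ X) ?_ fun i hi => ?_)
    · intro k hk
      rcases Finset.mem_union.mp hk with h | h <;>
        exact (Finset.mem_filter.mp (Finset.mem_filter.mp h).1).1
    letI := hF X i
    letI := hN X i
    obtain ⟨hd, hdisc⟩ := hφ X i
    have key : cl3Of (discr (F X i)) < 3 ∧ kron 3 (discr (F X i)) ≠ 1 := by
      rw [hdisc]
      rcases Finset.mem_union.mp hi with h | h <;>
        refine ⟨(Finset.mem_filter.mp h).2, ?_⟩ <;>
        rw [(Finset.mem_filter.mp (Finset.mem_filter.mp h).1).2 3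
          (Finset.mem_singleton_self 3)] <;> norm_num
    refine towers_of_not_dvd hd ?_ (not_dvd_of_cl3Of hd key.1)
    intro h
    refine key.2 ?_
    rw [kron_three, if_neg (by omega), if_pos h]
  rw [Finset.card_union_of_disjoint hdisj, Nat.cast_add] at hJ
  refine le_trans ?_ hJ
  have h4 := mul_le_mul_of_nonneg_left h2 hc.2
  have h5 := mul_le_mul_of_nonneg_right hc.1 (by positivity : 0 ≤ η * κ / 8 * X)
  have h6 := mul_le_mul_of_nonneg_left h3 hη.le
  have h0' : c * (1 / 4 * κ) * X - η * κ / 8 * X ≤ _ := h0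
  have h1' : c * (3 / 8 * κ) * X - η * κ / 8 * X ≤ _ := h1
  have h7 : 0 ≤ η * κ * X := by positivity
  nlinarith

end FA.ThreeTorsionLocal
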